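import Fermat.Agent.H84.ORD.NodalSpecB
import Fermat.Agent.H7.SS2.Vertical

/-!
# P-ORD, block B1, row 1158 [DVR] (helper41) : the place over a centre from a FACTORISATION

Generic component `(V, red)` of helper84 (`Fermat.Agent.H84.ORD.CompSoft`), `P` a place of
`F = FLb N`, `B̄ = nmChart N A (nmY A P)`, `O := red (B̄_𝔪) = {z | GenLocal A V red P z}`.

* `GenFactor A V red P` : there is `τ ∈ O`, `τ⁻¹ ∉ O`, such that every `z ≠ 0` of `Fk` is
  `ε τ ^ n` with `ε ∈ Oˣ`, `n ∈ ℤ`.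
* `genDvr_of_factor` : if the centre of `P` lies on the component (`𝔮 ∩ B̄ ⊆ 𝔪_P`) and
  `GenFactor` holds, then `O` is (the valuation ring of) a place `Q` of `Fk / k` over the centre
  of `P` : `GenSpec V red (nmCentre A P) Q ∧ ∀ z ∈ O_Q, GenLocal A V red P z`
  (the shape of `NmDvrOoStatement`, `NmDvrZeroStatement`).
-/

set_option autoImplicit false
set_option linter.unusedSectionVars false
set_option linter.style.haveILetI false
set_option linter.unusedVariables false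

noncomputable section

open AlgebraicCurve ModularCurve

namespace Fermat.Agent.H41.ORD

open Fermat.Agent.H72.FF Fermat.Agent.H18.ORD Fermat.Agent.H84.ORD

section Gen

variable {N : ℕ} [NeZero N] {A : ValuationSubring Qb} {Fk : Type} [Field Fk]
  [Algebra (kRes A) Fk] {V : Subring (FLb N)} {red : V →+* Fk}

/-- **FACTORISATION at the centre of `P`** : `Fkˣ = Oˣ × τ ^ ℤ`, `O = red (B̄_𝔪)`. -/
def GenFactor (A : ValuationSubring Qb) [Algebra (kRes A) Fk] (V : Subring (FLb N))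
    (red : V →+* Fk) (P : Place Qb (FLb N)) : Prop :=
  ∃ τ : Fk, GenLocal A V red P τ ∧ ¬ GenLocal A V red P τ⁻¹ ∧
    ∀ z : Fk, z ≠ 0 → ∃ (n : ℤ) (ε : Fk), GenLocal A V red P ε ∧ GenLocal A V red P ε⁻¹ ∧
      z = ε * τ ^ n

variable (P : Place Qb (FLb N))

/-- the complement of `nmMax` in the chart is multiplicative -/
theorem dvr_mul_not_mem_nmMax (hdeg : P.deg = 1) {s t : FLb N}
    (hs : s ∈ nmChart N A (nmY A P)) (ht : t ∈ nmChart N A (nmY A P))
    (hsm : s ∉ nmMax A P) (htm : t ∉ nmMax A P) : s * t ∉ nmMax A P := by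
  obtain ⟨c, hcA, hc⟩ := nmChart_value P hdeg hs
  obtain ⟨d, hdA, hd⟩ := nmChart_value P hdeg ht
  have hcu : c ∉ A.nonunits := fun h => hsm ((mem_nmMax_iff_of_value P hc).2 h)
  have hdu : d ∉ A.nonunits := fun h => htm ((mem_nmMax_iff_of_value P hd).2 h)
  intro hst
  have h1 : c * d ∈ A.nonunits := (mem_nmMax_iff_of_value P (nm_hasValue_mul P hc hd)).1 hst
  rw [ValuationSubring.mem_nonunits_iff] at h1 hcu hdu
  have hc1 : A.valuation c = 1 :=
    le_antisymm ((ValuationSubring.valuation_le_one_iff _ _).2 hcA) (not_lt.1 hcu)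
  have hd1 : A.valuation d = 1 :=
    le_antisymm ((ValuationSubring.valuation_le_one_iff _ _).2 hdA) (not_lt.1 hdu)
  rw [map_mul, hc1, hd1, mul_one] at h1
  exact lt_irrefl _ h1

/-- `f ∈ nmMax`, `g ∈ B̄` : `f g ∈ nmMax` -/
theorem dvr_mul_mem_nmMax (hdeg : P.deg = 1) {f g : FLb N} (hf : f ∈ nmMax A P)
    (hg : g ∈ nmChart N A (nmY A P)) : f * g ∈ nmMax A P := by
  obtain ⟨c, hc, hcv⟩ := hf
  obtain ⟨d, hdA, hd⟩ := nmChart_value P hdeg hg
  refine ⟨c * d, ?_, nm_hasValue_mul P hcv hd⟩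
  rw [ValuationSubring.mem_nonunits_iff] at hc ⊢
  rw [map_mul]
  have hd1 : A.valuation d ≤ 1 := (ValuationSubring.valuation_le_one_iff _ _).2 hdA
  calc A.valuation c * A.valuation d ≤ A.valuation c * 1 := by gcongr
    _ = A.valuation c := mul_one _
    _ < 1 := hc

/-- `nmMax` is closed under subtraction -/
theorem dvr_sub_mem_nmMax {f g : FLb N} (hf : f ∈ nmMax A P) (hg : g ∈ nmMax A P) :
    f - g ∈ nmMax A P := by
  obtain ⟨c, hc, hcv⟩ := hf
  obtain ⟨d, hd, hdv⟩ := hg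
  refine ⟨c - d, ?_, nm_hasValue_sub P hcv hdv⟩
  rw [ValuationSubring.mem_nonunits_iff] at hc hd ⊢
  rw [sub_eq_add_neg]
  refine lt_of_le_of_lt (Valuation.map_add _ _ _) (max_lt hc ?_)
  rwa [Valuation.map_neg]

theorem dvr_one_not_mem_nmMax : (1 : FLb N) ∉ nmMax A P := by
  rintro ⟨c, hc, hcv⟩
  have h1 : HasValue P (1 : FLb N) 1 := by
    rw [← map_one (algebraMap Qb (FLb N))]; exact nm_hasValue_const P 1
  rw [nm_hasValue_unique P hcv h1, ValuationSubring.mem_nonunits_iff, map_one] at hc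
  exact lt_irrefl _ hc

section Local

variable (H : CompSoft A V red)
include H

theorem genLocal_zero : GenLocal A V red P 0 :=
  ⟨0, 1, V.zero_mem, V.one_mem, (nmChart N A _).zero_mem, (nmChart N A _).one_mem,
    dvr_one_not_mem_nmMax P, by
      have : (⟨0, V.zero_mem⟩ : V) = 0 := rfl
      rw [this, map_zero, zero_mul]⟩

theorem genLocal_one : GenLocal A V red P 1 :=
  ⟨1, 1, V.one_mem, V.one_mem, (nmChart N A _).one_mem, (nmChart N A _).one_mem,
    dvr_one_not_mem_nmMax P, by rw [one_mul]⟩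

theorem genLocal_mul {z w : Fk} (hz : GenLocal A V red P z) (hw : GenLocal A V red P w) :
    GenLocal A V red P (z * w) := by
  obtain ⟨f, s, hf, hs, hfB, hsB, hsm, e⟩ := hz
  obtain ⟨g, t, hg, ht, hgB, htB, htm, e'⟩ := hw
  refine ⟨f * g, s * t, V.mul_mem hf hg, V.mul_mem hs ht, (nmChart N A _).mul_mem hfB hgB,
    (nmChart N A _).mul_mem hsB htB, dvr_mul_not_mem_nmMax P (H.deg P) hsB htB hsm htm, ?_⟩
  have e1 : (⟨f * g, V.mul_mem hf hg⟩ : V) = ⟨f, hf⟩ * ⟨g, hg⟩ := rfl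
  have e2 : (⟨s * t, V.mul_mem hs ht⟩ : V) = ⟨s, hs⟩ * ⟨t, ht⟩ := rfl
  rw [e1, e2, map_mul, map_mul, e, e']
  ring

theorem genLocal_add {z w : Fk} (hz : GenLocal A V red P z) (hw : GenLocal A V red P w) :
    GenLocal A V red P (z + w) := by
  obtain ⟨f, s, hf, hs, hfB, hsB, hsm, e⟩ := hz
  obtain ⟨g, t, hg, ht, hgB, htB, htm, e'⟩ := hw
  refine ⟨f * t + g * s, s * t, V.add_mem (V.mul_mem hf ht) (V.mul_mem hg hs), V.mul_mem hs ht,
    (nmChart N A _).add_mem ((nmChart N A _).mul_mem hfB htB) ((nmChart N A _).mul_mem hgB hsB),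
    (nmChart N A _).mul_mem hsB htB, dvr_mul_not_mem_nmMax P (H.deg P) hsB htB hsm htm, ?_⟩
  have e1 : (⟨f * t + g * s, V.add_mem (V.mul_mem hf ht) (V.mul_mem hg hs)⟩ : V) =
      ⟨f, hf⟩ * ⟨t, ht⟩ + ⟨g, hg⟩ * ⟨s, hs⟩ := rfl
  have e2 : (⟨s * t, V.mul_mem hs ht⟩ : V) = ⟨s, hs⟩ * ⟨t, ht⟩ := rfl
  rw [e1, e2, map_add, map_mul, map_mul, map_mul, e, e']
  ring

theorem genLocal_neg {z : Fk} (hz : GenLocal A V red P z) : GenLocal A V red P (-z) := by
  obtain ⟨f, s, hf, hs, hfB, hsB, hsm, e⟩ := hz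
  refine ⟨-f, s, V.neg_mem hf, hs, (nmChart N A _).neg_mem hfB, hsB, hsm, ?_⟩
  have e1 : (⟨-f, V.neg_mem hf⟩ : V) = -⟨f, hf⟩ := rfl
  rw [e1, map_neg, e, neg_mul]

theorem genLocal_pow {z : Fk} (hz : GenLocal A V red P z) (n : ℕ) :
    GenLocal A V red P (z ^ n) := by
  induction n with
  | zero => rw [pow_zero]; exact genLocal_one P H
  | succ n ih => rw [pow_succ]; exact genLocal_mul P H ih hz

theorem genLocal_const (c : kRes A) : GenLocal A V red P (algebraMap (kRes A) Fk c) := by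
  obtain ⟨a, rfl⟩ := IsLocalRing.residue_surjective c
  refine ⟨algebraMap Qb (FLb N) (a : Qb), 1, H.const_mem _ a.2, V.one_mem,
    algebraMap_mem_nmChart A _ a.2, (nmChart N A _).one_mem, dvr_one_not_mem_nmMax P, ?_⟩
  have : (⟨1, V.one_mem⟩ : V) = 1 := rfl
  rw [this, map_one, mul_one]
  exact H.red_const a _

/-- the reduction of an element of the chart is local -/
theorem genLocal_red {f : FLb N} (hfB : f ∈ nmChart N A (nmY A P)) (hf : f ∈ V) :
    GenLocal A V red P (red ⟨f, hf⟩) :=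
  ⟨f, 1, hf, V.one_mem, hfB, (nmChart N A _).one_mem, dvr_one_not_mem_nmMax P, by
    have : (⟨1, V.one_mem⟩ : V) = 1 := rfl
    rw [this, map_one, mul_one]⟩

/-- the reduction of an element of the centre is not a unit of `O` -/
theorem genLocal_centre_not_unit
    (hideal : ∀ f ∈ nmChart N A (nmY A P), ∀ h : f ∈ V, red ⟨f, h⟩ = 0 → f ∈ nmMax A P)
    {f : FLb N} (hfc : f ∈ nmCentre A P) (hf : f ∈ V) (hne : red ⟨f, hf⟩ ≠ 0) :
    ¬ GenLocal A V red P (red ⟨f, hf⟩)⁻¹ := by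
  rintro ⟨g, s, hg, hs, hgB, hsB, hsm, e⟩
  -- `red g = (red f)⁻¹ red s`, so `red (f g - s) = 0`
  have hmem : f * g - s ∈ V := V.sub_mem (V.mul_mem hf hg) hs
  have hB : f * g - s ∈ nmChart N A (nmY A P) :=
    (nmChart N A _).sub_mem ((nmChart N A _).mul_mem hfc.1 hgB) hsB
  have hred : red ⟨f * g - s, hmem⟩ = 0 := by
    have e1 : (⟨f * g - s, hmem⟩ : V) = ⟨f, hf⟩ * ⟨g, hg⟩ - ⟨s, hs⟩ := rfl
    rw [e1, map_sub, map_mul, e]
    field_simp
    ring
  have h1 : f * g - s ∈ nmMax A P := hideal _ hB hmem hred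
  have h2 : f * g ∈ nmMax A P := dvr_mul_mem_nmMax P (H.deg P) hfc.2 hgB
  apply hsm
  have h3 := dvr_sub_mem_nmMax P h2 h1
  have e2 : f * g - (f * g - s) = s := by ring
  rwa [e2] at h3

end Local

/-- **[DVR] from a factorisation** (generic component). -/
theorem genDvr_of_factor (H : CompSoft A V red)
    (hideal : ∀ f ∈ nmChart N A (nmY A P), ∀ h : f ∈ V, red ⟨f, h⟩ = 0 → f ∈ nmMax A P)
    (hfac : GenFactor A V red P) :
    ∃ Q : Place (kRes A) Fk, GenSpec V red (nmCentre A P) Q ∧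
      ∀ z ∈ Q.toValuationSubring, GenLocal A V red P z := by
  classical
  obtain ⟨τ, hτ, hτi, hfac⟩ := hfac
  have hτ0 : τ ≠ 0 := by
    intro h0
    apply hτi
    rw [h0, inv_zero]
    exact genLocal_zero P H
  -- powers of `τ`
  have hpow : ∀ (n : ℤ) (ε : Fk), GenLocal A V red P ε → 0 ≤ n →
      GenLocal A V red P (ε * τ ^ n) := by
    intro n ε hε hn
    obtain ⟨m, rfl⟩ := Int.eq_ofNat_of_zero_le hn
    rw [zpow_natCast]
    exact genLocal_mul P H hε (genLocal_pow P H hτ m)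
  have hneg : ∀ (n : ℤ) (ε : Fk), ε ≠ 0 → GenLocal A V red P ε⁻¹ →
      GenLocal A V red P (ε * τ ^ n) → 0 ≤ n := by
    intro n ε hε0 hε h
    by_contra hn
    rw [not_le] at hn
    apply hτi
    have e : τ⁻¹ = (ε⁻¹ * τ ^ (-n - 1)) * (ε * τ ^ n) := by
      have e1 : (ε⁻¹ * τ ^ (-n - 1)) * (ε * τ ^ n) = (ε⁻¹ * ε) * (τ ^ (-n - 1) * τ ^ n) := by
        ring
      rw [e1, inv_mul_cancel₀ hε0, one_mul, ← zpow_add₀ hτ0]
      have e2 : -n - 1 + n = -1 := by ring
      rw [e2, zpow_neg_one]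
    rw [e]
    exact genLocal_mul P H (hpow (-n - 1) ε⁻¹ hε (by omega)) h
  -- the valuation ring
  let O : ValuationSubring Fk :=
    { carrier := {z | GenLocal A V red P z}
      mul_mem' := fun {a b} ha hb => genLocal_mul P H ha hb
      one_mem' := genLocal_one P H
      add_mem' := fun {a b} ha hb => genLocal_add P H ha hb
      zero_mem' := genLocal_zero P H
      neg_mem' := fun {a} ha => genLocal_neg P H ha
      mem_or_inv_mem' := by
        intro x
        by_cases hx : x = 0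
        · left
          rw [hx]
          exact genLocal_zero P H
        · obtain ⟨n, ε, hε, hεi, rfl⟩ := hfac x hx
          by_cases hn : 0 ≤ n
          · left
            exact hpow n ε hε hn
          · right
            have e : (ε * τ ^ n)⁻¹ = ε⁻¹ * τ ^ (-n) := by
              rw [mul_inv, zpow_neg]
            show GenLocal A V red P (ε * τ ^ n)⁻¹
            rw [e]
            exact hpow (-n) ε⁻¹ hεi (by omega) }
  have hO : ∀ z : Fk, z ∈ O ↔ GenLocal A V red P z := fun z => Iff.rfl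
  have hnu : ∀ z : Fk, z ∈ O.nonunits ↔ z = 0 ∨ ¬ GenLocal A V red P z⁻¹ := by
    intro z
    rw [ValuationSubring.mem_nonunits_iff_or]
    exact Iff.rfl
  have hτm : τ ∈ O.nonunits := (hnu τ).2 (Or.inr hτi)
  -- normal form of the elements of `O`
  have hnf : ∀ z : Fk, z ≠ 0 → GenLocal A V red P z →
      ∃ (m : ℕ) (ε : Fk), ε ≠ 0 ∧ GenLocal A V red P ε ∧ GenLocal A V red P ε⁻¹ ∧
        z = ε * τ ^ m := by
    intro z hz hzO
    obtain ⟨n, ε, hε, hεi, rfl⟩ := hfac z hz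
    have hε0 : ε ≠ 0 := left_ne_zero_of_mul hz
    have hn := hneg n ε hε0 hεi hzO
    obtain ⟨m, rfl⟩ := Int.eq_ofNat_of_zero_le hn
    exact ⟨m, ε, hε0, hε, hεi, by rw [zpow_natCast]⟩
  have hpir : IsPrincipalIdealRing O := by
    refine Fermat.Agent.H7.SS2.isPrincipalIdealRing_of_factor O τ hτ0 hτm ?_ ?_
    · intro y hy
      by_cases hy0 : y = 0
      · rw [hy0, zero_div]
        exact genLocal_zero P H
      have hyO : GenLocal A V red P y := O.nonunits_le hy
      obtain ⟨m, ε, hε0, hε, hεi, rfl⟩ := hnf y hy0 hyO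
      rcases m with _ | m
      · exfalso
        rw [pow_zero, mul_one] at hy
        rcases (hnu ε).1 hy with h | h
        · exact hε0 h
        · exact h hεi
      · have e : ε * τ ^ (m + 1) / τ = ε * τ ^ m := by
          rw [pow_succ]
          field_simp
        rw [e]
        exact genLocal_mul P H hε (genLocal_pow P H hτ m)
    · intro x hx hx0
      obtain ⟨m, ε, hε0, hε, hεi, rfl⟩ := hnf x hx0 hx
      have hτm0 : τ ^ m ≠ 0 := pow_ne_zero _ hτ0
      refine ⟨m, ?_, ?_⟩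
      · have e : ε * τ ^ m / τ ^ m = ε := by field_simp
        rw [e]
        exact hε
      · have e : τ ^ m / (ε * τ ^ m) = ε⁻¹ := by field_simp
        rw [e]
        exact hεi
  have htop : O ≠ ⊤ := by
    intro h
    apply hτi
    rw [← hO, h]
    exact ValuationSubring.mem_top _
  refine ⟨⟨O, fun c => genLocal_const P H c, htop, hpir⟩, ?_, fun z hz => hz⟩
  intro f hfc hf
  show red ⟨f, hf⟩ ∈ O.nonunits
  rw [hnu]
  by_cases h0 : red ⟨f, hf⟩ = 0
  · exact Or.inl h0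
  · exact Or.inr (genLocal_centre_not_unit P H hideal hfc hf h0)

end Gen

end Fermat.Agent.H41.ORD
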