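/-
helper41, P-ORD, block B1, row 1158 [DVR] (route of helper82: VAL + RRHyp ⟹ DVR).

The `(K₁, A₀)`-core in the form consumed by the `ℚ̄`-descent (`H41.ORD.NmValChart`):

* `ModelValGenStatement M q R y₀ c` : on the chart `x` with `q`-expansion `y₀` of the model of
  `X₀(M q)` over ANY discrete valuation ring `A₀` (fields `K₁ ⊇ μ_R`), at every maximal ideal
  `𝔪 ∋ ϖ` through `V_∞` (containing `x` if `c`) : for EVERY `z ∈ V_∞` there are `t, d ∈ B(x)`,
  `d ∉ 𝔪`, with `d z ≡ t` or `d ≡ t z` modulo `𝔪_{V_∞}`.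
* `modelValGen_j` : the chart `j` (`y₀ = jq`, `c = False`), UNCONDITIONAL at every auxiliary
  pair, from helper71's `modelCompVal_aux` (VAL on `B`) and helper66's `modelFrac` (FRAC).
-/
import Fermat.Agent.H71.ORD.CompVal

set_option autoImplicit false
set_option linter.unusedSectionVars false
set_option linter.unusedVariables false
set_option linter.style.haveILetI false

noncomputable section

namespace Fermat.Agent.H41.ORD

open Polynomial ModularCurve AlgebraicCurve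
open Fermat.Agent.H22.KL Fermat.Agent.H66 Fermat.Agent.H55.SS Fermat.Agent.H82.SS
open Fermat.Agent.H11.SS2 Fermat.Agent.H67.SS Fermat.Agent.H7.SS Fermat.Agent.H7.SS2
open Fermat.Agent.H41.SS Fermat.Agent.H71.SS Fermat.Agent.H71.ORD

/-- `x ∈ B(x)`. -/
theorem vc_self_mem {A : Type} [CommRing A] {E : Type} [Field E] [Algebra A E] (x : E) :
    x ∈ chartClosure A E x :=
  Fermat.Agent.H9.SS.lrc_self_mem_chartClosure x

/-- **The `(K₁, A₀)`-core of [DVR], valuation form, generic chart.**  `c` : only the maximal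
ideals containing the coordinate `x` are considered. -/
def ModelValGenStatement (M q R : ℕ) [NeZero M] [NeZero q] (y₀ : LaurentSeries ℚ) (c : Prop) :
    Prop :=
  ∀ (K₁ : Type) [Field K₁] [Algebra ℚ K₁] [FiniteDimensional ℚ K₁]
    (A₀ : Type) [CommRing A₀] [IsDomain A₀] [IsDiscreteValuationRing A₀]
    [Algebra A₀ K₁] [IsFractionRing A₀ K₁]
    [Algebra A₀ (ModelField K₁ (M * q))] [IsScalarTower A₀ K₁ (ModelField K₁ (M * q))],
    ¬ IsUnit ((q : ℕ) : A₀) →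
    (∃ ζ : K₁, IsPrimitiveRoot ζ R) →
    ∀ (ϖ : A₀), Irreducible ϖ →
    ∀ (x : ModelField K₁ (M * q)), (x : LaurentSeries K₁) = coeffEmb K₁ y₀ →
    ∀ (W : ModelField K₁ (M * q) ≃ₐ[K₁] ModelField K₁ (M * q)), IsAtkinLehnerModel K₁ M q W →
    ∀ 𝔪 : Ideal (chartClosure A₀ (ModelField K₁ (M * q)) x), 𝔪.IsMaximal →
      algebraMap A₀ (chartClosure A₀ (ModelField K₁ (M * q)) x) ϖ ∈ 𝔪 →
      Through A₀ (ModelField K₁ (M * q)) x 𝔪 (vInf K₁ A₀ (M * q)) →
      (c → (⟨x, vc_self_mem x⟩ : chartClosure A₀ (ModelField K₁ (M * q)) x) ∈ 𝔪) →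
      ∀ z ∈ vInf K₁ A₀ (M * q),
        ∃ t d : chartClosure A₀ (ModelField K₁ (M * q)) x, d ∉ 𝔪 ∧
          ((d : ModelField K₁ (M * q)) * z - (t : ModelField K₁ (M * q)) ∈
              (vInf K₁ A₀ (M * q)).nonunits ∨
            (d : ModelField K₁ (M * q)) - (t : ModelField K₁ (M * q)) * z ∈
              (vInf K₁ A₀ (M * q)).nonunits)

/-- **The core on the chart `j`**, from FRAC (`modelFrac`) and VAL on `B` (`ModelCompVal`). -/
theorem modelValGen_of_compVal (M q R : ℕ) [NeZero M] [NeZero q] (hq : q.Prime)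
    (hqM : ¬ q ∣ M) (hCV : ModelCompValStatement M q R) :
    ModelValGenStatement M q R jq False := by
  intro K₁ _ _ _ A₀ _ _ _ _ _ _ _ hqA hζ ϖ hirr x hx W hW 𝔪 h𝔪 hϖ𝔪 hT _ z hz
  obtain ⟨-, hVAL⟩ := hCV K₁ A₀ hqA hζ ϖ hirr x hx W hW 𝔪 h𝔪 hϖ𝔪 hT
  set V := vInf K₁ A₀ (M * q) with hV
  obtain ⟨b₁, b₂, hb₁, hb₂, hb₂m, hzm⟩ :=
    Fermat.Agent.H66.SS.modelFrac M q hq hqM K₁ A₀ hqA ϖ hirr x hx z
      (InV.exists_quot _ ((mem_vInf_iff _).1 hz))
  have hb₂u : heckeAlphaBar K₁ M q b₂ ∉ V.nonunits := by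
    intro h
    exact hb₂m (Fermat.Agent.H66.SS.fv_inM_exists_quot _ ((mem_nonunits_vInf_iff _).1 h) hirr)
  have hzm' : z * heckeAlphaBar K₁ M q b₂ - heckeAlphaBar K₁ M q b₁ ∈ V.nonunits :=
    (mem_nonunits_vInf_iff _).2 (Fermat.Agent.H66.SS.fv_inM_of_quot _ hirr.not_isUnit hzm)
  -- `B(x) ⊆ V_∞`
  have hxtr : Transcendental A₀ x := Fermat.Agent.H58.modelTranscendental_jq (M * q) K₁ A₀ x hx
  have hvert := isVertical_vInf M q K₁ A₀ hqA ϖ hirr x hx W hW
  have hBV : ∀ s : chartClosure A₀ (ModelField K₁ (M * q)) x,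
      (s : ModelField K₁ (M * q)) ∈ V := fun s =>
    hvert.2.2.1 _ (Fermat.Agent.H89.klg_chartClosure_le_gaussClosure hirr hxtr s.2)
  have hb₂V : heckeAlphaBar K₁ M q b₂ ∈ V := hBV ⟨_, hb₂⟩
  rcases hVAL ⟨_, hb₁⟩ ⟨_, hb₂⟩ with ⟨t, d, hd, h⟩ | ⟨t, d, hd, h⟩
  · refine ⟨t, d, hd, Or.inl ?_⟩
    apply nu_cancel V hb₂V hb₂u
    have e : heckeAlphaBar K₁ M q b₂ * ((d : ModelField K₁ (M * q)) * z -
        (t : ModelField K₁ (M * q))) =
        (d : ModelField K₁ (M * q)) *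
          (z * heckeAlphaBar K₁ M q b₂ - heckeAlphaBar K₁ M q b₁) +
        ((d : ModelField K₁ (M * q)) * heckeAlphaBar K₁ M q b₁ -
          (t : ModelField K₁ (M * q)) * heckeAlphaBar K₁ M q b₂) := by ring
    rw [e]
    exact nu_add V (nu_mul_left V (hBV d) hzm') h
  · refine ⟨t, d, hd, Or.inr ?_⟩
    apply nu_cancel V hb₂V hb₂u
    have e : heckeAlphaBar K₁ M q b₂ * ((d : ModelField K₁ (M * q)) -
        (t : ModelField K₁ (M * q)) * z) =
        ((d : ModelField K₁ (M * q)) * heckeAlphaBar K₁ M q b₂ -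
          (t : ModelField K₁ (M * q)) * heckeAlphaBar K₁ M q b₁) -
        (t : ModelField K₁ (M * q)) *
          (z * heckeAlphaBar K₁ M q b₂ - heckeAlphaBar K₁ M q b₁) := by ring
    rw [e]
    exact nu_sub V h (nu_mul_left V (hBV t) hzm')

/-- **The core on the chart `j`**, UNCONDITIONAL at every auxiliary pair. -/
theorem modelValGen_j (M q : ℕ) [NeZero M] [NeZero q] (hq : q.Prime) (hqM : ¬ q ∣ M)
    (h4 : q ≠ 2 → 4 ∣ M) (h9 : q = 2 → 9 ∣ M) :
    ModelValGenStatement M q (ktAuxRoot M q) jq False :=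
  modelValGen_of_compVal M q _ hq hqM (modelCompVal_aux M q hq hqM h4 h9)

end Fermat.Agent.H41.ORD

end
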