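/-
helper41, P-ORD, block B1, row 1158 [DVR] (route of helper82: VAL + RRHyp ⟹ DVR).

**`red_∞ (B̄_𝔪)` is a valuation ring of `F_∞`** at every centre `𝔪` on `C_∞` : the `ℚ̄`-descent of
the `(K₁, A₀)`-core `ModelValGenStatement`, GENERIC in the chart.

* `nmValOo_of_core` : the descent (chart coordinate `w ∈ ℚ(X₀(M p))`, `nmY A P = ratBar w`);
* `nmValOo_chartJ` : the chart `j`, UNCONDITIONAL (`modelValGen_j`);
* `nmValOo_chartInv` : the chart `1/j` from the cusp core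
  `ModelValGenStatement M p (ktAuxRoot M p) jq⁻¹ True`;
* `NmValOoStatement`, `nmValOo_of_cusp` : all centres on `C_∞`.
-/
import Fermat.Agent.H41.ORD.ValCore
import Fermat.Agent.H30.ORD.DescCentre
import Fermat.Agent.H66.ORD.TotIdeal
import Fermat.Agent.H84.ORD.NodalSpecFinal

set_option autoImplicit false
set_option linter.unusedSectionVars false
set_option linter.unusedVariables false
set_option linter.style.haveILetI false
set_option synthInstance.maxHeartbeats 400000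
set_option maxHeartbeats 1600000

noncomputable section

namespace Fermat.Agent.H41.ORD

open Polynomial ModularCurve AlgebraicCurve
open Fermat.Agent.H22.KL Fermat.Agent.H9.E6 Fermat.Agent.H84.ORD Fermat.Agent.H72.FF
open Fermat.Agent.H7.SS Fermat.Agent.H7.SS2 Fermat.Agent.H66 Fermat.Agent.H66.ORD
open Fermat.Agent.H30.ORD Fermat.Agent.H82.SS Fermat.Agent.H11.SS2 Fermat.Agent.H71.SS
open Fermat.Agent.H93.KL (klBc)

/-- **[VAL], component `∞`** : `red_∞ (B̄_𝔪)` is a valuation ring of `F_∞` at every centre on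
`C_∞`. -/
def NmValOoStatement (M p : ℕ) [NeZero M] [NeZero p] : Prop :=
  ∀ (A : ValuationSubring Qb) (_ : NmSetup M p A) (P : Place Qb (FLb (M * p))),
    NmIdealOo M p A P → ∀ z : NmF (M * p) A, NmLocalOo M p A P z ∨ NmLocalOo M p A P z⁻¹

section Descent

variable {M p : ℕ} [NeZero M] [NeZero p]

/-- `0 ∈ red_∞ (B̄_𝔪)` -/
theorem nmLocalOo_zero (A : ValuationSubring Qb) (P : Place Qb (FLb (M * p)))
    (hdeg : P.deg = 1) : NmLocalOo M p A P 0 := by
  refine ⟨0, 1, Subring.zero_mem _, Subring.one_mem _, Subring.zero_mem _, Subring.one_mem _,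
    Fermat.Agent.H66.ORD.one_not_mem_nmMax A P, ?_⟩
  rw [zero_mul]
  exact map_zero _

/-- **THE DESCENT** of the `(K₁, A₀)`-core, generic in the chart. -/
theorem nmValOo_of_core (R : ℕ) (hR : 0 < R) (w : ↥(modularFunctionFieldFull (M * p)))
    (c : Prop) (hcore : ModelValGenStatement M p R (w : LaurentSeries ℚ) c)
    (hS : NmSoftStatement M p)
    (A : ValuationSubring Qb) (h : NmSetup M p A) (P : Place Qb (FLb (M * p)))
    (hw : nmY A P = Fermat.Agent.H62.SS.ratBar (modularFunctionFieldFull (M * p)) w)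
    (hc : c → nmY A P ∈ nmMax A P)
    (hI : NmIdealOo M p A P) (z : NmF (M * p) A) :
    NmLocalOo M p A P z ∨ NmLocalOo M p A P z⁻¹ := by
  classical
  have H : NmBase M p A := nmBase_of_soft hS h
  have hdeg : P.deg = 1 := H.deg P
  by_cases hz0 : z = 0
  · left
    rw [hz0]
    exact nmLocalOo_zero A P hdeg
  have hp : p.Prime := h.prime
  haveI : Fact p.Prime := ⟨hp⟩
  haveI : NeZero (M * p) := ⟨Nat.mul_ne_zero (NeZero.ne M) (NeZero.ne p)⟩
  obtain ⟨u, hu⟩ := nmRedOo_surjective (M * p) A z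
  -- the number field
  obtain ⟨K₀, hfd₀, hK₀⟩ := Fermat.Agent.H61.coeffDescent (modularFunctionFieldFull (M * p))
    ((u : FLb (M * p)) : LaurentSeries Qb) (u : FLb (M * p)).2
  haveI : NeZero ((R : ℕ) : ℚ) := ⟨Nat.cast_ne_zero.mpr hR.ne'⟩
  obtain ⟨ζ, hζ⟩ := HasEnoughRootsOfUnity.exists_primitiveRoot Qb R
  haveI := hfd₀
  haveI : FiniteDimensional ℚ ↥(IntermediateField.adjoin ℚ ({ζ} : Set Qb)) :=
    IntermediateField.finiteDimensional_adjoin
      (fun x _ => ((AlgebraicClosure.isAlgebraic ℚ).isAlgebraic x).isIntegral)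
  set K : IntermediateField ℚ Qb := K₀ ⊔ IntermediateField.adjoin ℚ ({ζ} : Set Qb) with hK
  haveI hfd : FiniteDimensional ℚ ↥K := IntermediateField.finiteDimensional_sup _ _
  set ι : ↥K →+* Qb := algebraMap ↥K Qb with hι
  have hιinj : Function.Injective ι := (algebraMap ↥K Qb).injective
  haveI : NumberField ↥K := ordNumberField_of_fd ↥K
  have hpL : ((p : ℕ) : Qb) ≠ 0 := Nat.cast_ne_zero.mpr hp.ne_zero
  haveI hDVR : IsDiscreteValuationRing ↥(A.comap ι) :=
    Fermat.Agent.H93.KL.comap_isDiscreteValuationRing ι A hpL h.liesOver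
  obtain ⟨ϖ, hϖ⟩ := IsDiscreteValuationRing.exists_irreducible ↥(A.comap ι)
  letI := modelAlgebra ↥K (A.comap ι) (M * p)
  haveI := modelAlgebra_isScalarTower ↥K (A.comap ι) (M * p)
  have hnu : ¬ IsUnit ((p : ℕ) : ↥(A.comap ι)) := by
    have h1 := Fermat.Agent.H93.KL.natCast_mem_nonunits_comap ι A h.liesOver
    rw [ValuationSubring.mem_nonunits_iff_exists_mem_maximalIdeal] at h1
    obtain ⟨hmem, hmax⟩ := h1
    rw [IsLocalRing.mem_maximalIdeal, mem_nonunits_iff] at hmax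
    intro hu
    apply hmax
    have e : (⟨(p : ↥K), hmem⟩ : ↥(A.comap ι)) = ((p : ℕ) : ↥(A.comap ι)) :=
      Subtype.ext (by simp)
    rw [e]
    exact hu
  -- roots of unity
  have hζK : ζ ∈ K :=
    (le_sup_right : IntermediateField.adjoin ℚ ({ζ} : Set Qb) ≤ K)
      (IntermediateField.mem_adjoin_simple_self ℚ ζ)
  have hζ₁ : IsPrimitiveRoot (⟨ζ, hζK⟩ : ↥K) R :=
    IsPrimitiveRoot.of_map_of_injective (f := ι) (show IsPrimitiveRoot (ι ⟨ζ, hζK⟩) R from hζ)
      hιinj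
  -- the element over the number field
  obtain ⟨f₁, hf₁, hf₁u⟩ := hK₀ ↥K ι (fun c hc => ⟨⟨c, (le_sup_left : K₀ ≤ K) hc⟩, rfl⟩)
  set u₁ : ModelField ↥K (M * p) := ⟨f₁, hf₁⟩ with hu₁
  have hbc : ddBc ι (M * p) u₁ = (u : FLb (M * p)) := Subtype.ext hf₁u
  -- the coordinate
  set x : ModelField ↥K (M * p) :=
    Fermat.Agent.H62.SS.ratK (K₁ := ↥K) (modularFunctionFieldFull (M * p)) w with hx
  have hxs : (x : LaurentSeries ↥K) = coeffEmb ↥K (w : LaurentSeries ℚ) := rfl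
  have hxy : ddBc ι (M * p) x = nmY A P := by
    rw [hw]
    exact ddBc_eq_of_coeffEmb ι (M * p) x _ (w : LaurentSeries ℚ) hxs rfl
  -- the Atkin-Lehner automorphism
  obtain ⟨W₁, hW₁, -, -⟩ := Fermat.Agent.H30.ORD.exists_modelW M p h.cop ι
  -- the centre
  have hy' := ddBc_y_mem_nmComp M p ι A P hdeg x hxy
  set 𝔪 := ddCentre ι A (M * p) P hdeg x hy' with h𝔪
  have h𝔪max : 𝔪.IsMaximal := ddCentre_isMaximal ι A (M * p) P hdeg x hy'
  have hϖ𝔪 : algebraMap ↥(A.comap ι) ↥(chartClosure ↥(A.comap ι) (ModelField ↥K (M * p)) x) ϖ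
      ∈ 𝔪 := algebraMap_mem_ddCentre ι A (M * p) P hdeg x hy' hϖ.not_isUnit
  have hT : Through ↥(A.comap ι) (ModelField ↥K (M * p)) x 𝔪 (vInf ↥K ↥(A.comap ι) (M * p)) :=
    fun s hs => ddCentre_through_oo M p ι A P hdeg x hxy hI s hs
  have hcx : c → (⟨x, vc_self_mem x⟩ :
      chartClosure ↥(A.comap ι) (ModelField ↥K (M * p)) x) ∈ 𝔪 := by
    intro hcc
    rw [h𝔪, mem_ddCentre_iff]
    show ddBc ι (M * p) x ∈ nmMax A P
    rw [hxy]
    exact hc hcc
  have hu₁V : u₁ ∈ vInf ↥K ↥(A.comap ι) (M * p) :=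
    (ddBc_mem_gaussOBar_iff ι A (M * p) u₁).1 (by rw [hbc]; exact u.2)
  obtain ⟨t, d, hd, hcase⟩ :=
    hcore ↥K ↥(A.comap ι) hnu ⟨_, hζ₁⟩ ϖ hϖ x hxs W₁ hW₁ 𝔪 h𝔪max hϖ𝔪 hT hcx u₁ hu₁V
  -- go up
  have hTB : ddBc ι (M * p) (t : ModelField ↥K (M * p)) ∈ nmChart (M * p) A (nmY A P) := by
    rw [← hxy]
    exact ddBc_mem_nmChart ι A (M * p) x _ t.2
  have hDB : ddBc ι (M * p) (d : ModelField ↥K (M * p)) ∈ nmChart (M * p) A (nmY A P) := by
    rw [← hxy]
    exact ddBc_mem_nmChart ι A (M * p) x _ d.2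
  have hTV : ddBc ι (M * p) (t : ModelField ↥K (M * p)) ∈ gaussOBar (M * p) A :=
    H.chart_le_oo P hTB
  have hDV : ddBc ι (M * p) (d : ModelField ↥K (M * p)) ∈ gaussOBar (M * p) A :=
    H.chart_le_oo P hDB
  have hDm : ddBc ι (M * p) (d : ModelField ↥K (M * p)) ∉ nmMax A P := by
    intro hm
    exact hd ((mem_ddCentre_iff ι A (M * p) P hdeg x hy' d).2 hm)
  have huz : nmRedOo (M * p) A ⟨ddBc ι (M * p) u₁, by rw [hbc]; exact u.2⟩ = z := by
    rw [← hu]
    congr 1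
    exact Subtype.ext hbc
  rcases hcase with h1 | h1
  · left
    refine ⟨_, _, hTV, hDV, hTB, hDB, hDm, ?_⟩
    have hmem : ddBc ι (M * p) ((d : ModelField ↥K (M * p)) * u₁ -
        (t : ModelField ↥K (M * p))) ∈ gaussOBar (M * p) A :=
      (ddBc_mem_gaussOBar_iff ι A (M * p) _).2 (ValuationSubring.nonunits_subset h1)
    have h0 := ddBc_redOo_eq_zero_of_mem ι A (M * p) _ h1 hmem
    have e : (⟨ddBc ι (M * p) ((d : ModelField ↥K (M * p)) * u₁ -
        (t : ModelField ↥K (M * p))), hmem⟩ : ↥(gaussOBar (M * p) A)) =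
        ⟨ddBc ι (M * p) (d : ModelField ↥K (M * p)), hDV⟩ *
          ⟨ddBc ι (M * p) u₁, by rw [hbc]; exact u.2⟩ -
        ⟨ddBc ι (M * p) (t : ModelField ↥K (M * p)), hTV⟩ := by
      apply Subtype.ext
      show ddBc ι (M * p) _ = ddBc ι (M * p) _ * ddBc ι (M * p) _ - ddBc ι (M * p) _
      rw [map_sub, map_mul]
    rw [e, map_sub, map_mul, huz, sub_eq_zero] at h0
    rw [← h0]
    exact mul_comm _ _
  · right
    refine ⟨_, _, hTV, hDV, hTB, hDB, hDm, ?_⟩
    have hmem : ddBc ι (M * p) ((d : ModelField ↥K (M * p)) -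
        (t : ModelField ↥K (M * p)) * u₁) ∈ gaussOBar (M * p) A :=
      (ddBc_mem_gaussOBar_iff ι A (M * p) _).2 (ValuationSubring.nonunits_subset h1)
    have h0 := ddBc_redOo_eq_zero_of_mem ι A (M * p) _ h1 hmem
    have e : (⟨ddBc ι (M * p) ((d : ModelField ↥K (M * p)) -
        (t : ModelField ↥K (M * p)) * u₁), hmem⟩ : ↥(gaussOBar (M * p) A)) =
        ⟨ddBc ι (M * p) (d : ModelField ↥K (M * p)), hDV⟩ -
        ⟨ddBc ι (M * p) (t : ModelField ↥K (M * p)), hTV⟩ *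
          ⟨ddBc ι (M * p) u₁, by rw [hbc]; exact u.2⟩ := by
      apply Subtype.ext
      show ddBc ι (M * p) _ = ddBc ι (M * p) _ - ddBc ι (M * p) _ * ddBc ι (M * p) _
      rw [map_sub, map_mul]
    rw [e, map_sub, map_mul, huz, sub_eq_zero] at h0
    -- `red d = red t * z`
    rw [h0, mul_comm (nmRedOo (M * p) A ⟨ddBc ι (M * p) (t : ModelField ↥K (M * p)), hTV⟩) z,
      ← mul_assoc, inv_mul_cancel₀ hz0, one_mul]

/-- **[VAL] on the chart `j`**, UNCONDITIONAL. -/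
theorem nmValOo_chartJ (hS : NmSoftStatement M p)
    (A : ValuationSubring Qb) (h : NmSetup M p A) (P : Place Qb (FLb (M * p)))
    (hy : nmY A P = nmJ (M * p)) (hI : NmIdealOo M p A P) (z : NmF (M * p) A) :
    NmLocalOo M p A P z ∨ NmLocalOo M p A P z⁻¹ := by
  have hp : p.Prime := h.prime
  have hpM : ¬ p ∣ M := (Nat.Prime.coprime_iff_not_dvd hp).1 h.cop.symm
  refine nmValOo_of_core (ktAuxRoot M p) (ktAuxRoot_pos M p) (nmJq (M * p)) False
    (modelValGen_j M p hp hpM (fun _ => h.four) (fun h2 => absurd h2 h.odd)) hS A h P ?_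
    (fun hF => hF.elim) hI z
  rw [hy]
  exact nmJ_eq_ratBar (M * p)

/-- **[VAL] on the chart `1/j`** (the cusps), from the cusp core. -/
theorem nmValOo_chartInv
    (hcusp : ModelValGenStatement M p (ktAuxRoot M p) (jq)⁻¹ True)
    (hS : NmSoftStatement M p)
    (A : ValuationSubring Qb) (h : NmSetup M p A) (P : Place Qb (FLb (M * p)))
    (hJ : nmJ (M * p) ∉ nmInt A P) (hI : NmIdealOo M p A P) (z : NmF (M * p) A) :
    NmLocalOo M p A P z ∨ NmLocalOo M p A P z⁻¹ := by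
  classical
  have hy : nmY A P = (nmJ (M * p))⁻¹ := by
    unfold nmY
    rw [if_neg hJ]
  have hmax : nmY A P ∈ nmMax A P := by
    rw [hy]
    exact (Fermat.Agent.H66.ORD.mem_nmInt_or_inv_mem_nmMax A P (nmJ (M * p))).resolve_left hJ
  refine nmValOo_of_core (ktAuxRoot M p) (ktAuxRoot_pos M p) (nmJq (M * p))⁻¹ True
    hcusp hS A h P ?_ (fun _ => hmax) hI z
  rw [hy, map_inv₀, nmJ_eq_ratBar (M * p)]

/-- **[VAL], component `∞`**, from the cusp core. -/
theorem nmValOo_of_cusp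
    (hcusp : ModelValGenStatement M p (ktAuxRoot M p) (jq)⁻¹ True)
    (hS : NmSoftStatement M p) : NmValOoStatement M p := by
  classical
  intro A h P hI z
  by_cases hJ : nmJ (M * p) ∈ nmInt A P
  · refine nmValOo_chartJ hS A h P ?_ hI z
    unfold nmY
    rw [if_pos hJ]
  · exact nmValOo_chartInv hcusp hS A h P hJ hI z

end Descent

end Fermat.Agent.H41.ORD

end
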