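import Fermat.Agent.H41.ORD.DvrAbs
import Fermat.Agent.H84.ORD.NodalSpecFinal
import Fermat.Agent.H8.SS.Haupt4

/-!
# P-ORD, block B1, row 1158 [DVR] (helper41) : interfaces and assembly

`[DVR]` (`NmDvrOoStatement`, `NmDvrZeroStatement` of helper84) is reduced, by
`Fermat.Agent.H41.ORD.genDvr_of_factor`, to the FACTORISATION at the centre of every place `P`
on the component (`GenFactor`): a level-independent uniformiser `τ` of `O = red (B̄_𝔪)` such
that every `z ≠ 0` of `F_∞` is `ε τ ^ n`, `ε ∈ Oˣ`.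

* `NmFactorOoStatement`, `NmFactorZeroStatement` : the factorisation at every centre on `C_∞`,
  `C_0` (exact Props);
* `nmDvrOo_of_factor`, `nmDvrZero_of_factor` : the two `[DVR]` statements from them;
* `ModelLevelFactorStatement M q` : THE `(K₁, A₀)` CORE at level `M` (`4 ∣ M`, `q` odd, `q ∤ M`;
  any discrete valuation ring `A₀`, ramified allowed) : at a maximal ideal `𝔫 ∋ ϖ` of
  `B'(j) = chartClosure A₀ (ModelField K₁ M) j` containing `U = H - a` (`H` the Hauptmodul of
  level 4, `a ∈ A₀`), every unit `y` of the Gauss valuation ring `V_∞` is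
  `s y ≡ f U ^ n mod 𝔪_∞` with `f, s ∈ B'(j) ∖ 𝔫`, `n ∈ ℤ`.
-/

set_option autoImplicit false
set_option linter.unusedSectionVars false
set_option linter.style.haveILetI false
set_option linter.unusedVariables false

noncomputable section

open AlgebraicCurve ModularCurve

namespace Fermat.Agent.H41.ORD

open Fermat.Agent.H72.FF Fermat.Agent.H18.ORD Fermat.Agent.H84.ORD Fermat.Agent.H66
open Fermat.Agent.H22.KL Fermat.Agent.H7.SS2 Fermat.Agent.H8.SS

/-- **FACTORISATION at the centres on `C_∞`.** -/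
def NmFactorOoStatement (M p : ℕ) [NeZero M] [NeZero p] : Prop :=
  ∀ (A : ValuationSubring Qb) (_ : NmSetup M p A) (P : Place Qb (FLb (M * p))),
    NmIdealOo M p A P → GenFactor A (gaussOBar (M * p) A) (nmRedOo (M * p) A) P

/-- **FACTORISATION at the centres on `C_0`.** -/
def NmFactorZeroStatement (M p : ℕ) [NeZero M] [NeZero p] : Prop :=
  ∀ (A : ValuationSubring Qb) (h : NmSetup M p A) (P : Place Qb (FLb (M * p))),
    NmIdealZero M p h.cop A P → GenFactor A (nmV0 M p h.cop A) (nmRed0 M p h.cop A) P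

/-- **[DVR], component `∞`, from the factorisation.** -/
theorem nmDvrOo_of_factor {M p : ℕ} [NeZero M] [NeZero p] (hS : NmSoftStatement M p)
    (hF : NmFactorOoStatement M p) : NmDvrOoStatement M p := by
  intro A h P hP
  have H : NmBase M p A := nmBase_of_soft hS h
  exact genDvr_of_factor P H.oo hP (hF A h P hP)

/-- **[DVR], component `0`, from the factorisation.** -/
theorem nmDvrZero_of_factor {M p : ℕ} [NeZero M] [NeZero p] (hS : NmSoftStatement M p)
    (hF : NmFactorZeroStatement M p) : NmDvrZeroStatement M p := by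
  intro A h P hP
  have H : NmBase M p A := nmBase_of_soft hS h
  exact genDvr_of_factor P H.zero hP (hF A h P hP)

/-- **THE `(K₁, A₀)` CORE : factorisation modulo `𝔪_∞` at a closed point of level `M`**, with
the explicit uniformiser `U = H - a`. -/
def ModelLevelFactorStatement (M q : ℕ) [NeZero M] : Prop :=
  ∀ (K₁ : Type) [Field K₁] [Algebra ℚ K₁] [FiniteDimensional ℚ K₁]
    (A₀ : Type) [CommRing A₀] [IsDomain A₀] [IsDiscreteValuationRing A₀]
    [Algebra A₀ K₁] [IsFractionRing A₀ K₁]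
    [Algebra A₀ (ModelField K₁ M)] [IsScalarTower A₀ K₁ (ModelField K₁ M)],
    ¬ IsUnit ((q : ℕ) : A₀) →
    ∀ (ϖ : A₀), Irreducible ϖ →
    ∀ (x : ModelField K₁ M), (x : LaurentSeries K₁) = coeffEmb K₁ jq →
    ∀ (H : ModelField K₁ M), (H : LaurentSeries K₁) = h4S K₁ →
    ∀ 𝔫 : Ideal (chartClosure A₀ (ModelField K₁ M) x), 𝔫.IsMaximal →
      algebraMap A₀ (chartClosure A₀ (ModelField K₁ M) x) ϖ ∈ 𝔫 →
    ∀ (a : A₀) (U : chartClosure A₀ (ModelField K₁ M) x),
      (U : ModelField K₁ M) = H - algebraMap A₀ (ModelField K₁ M) a → U ∈ 𝔫 →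
      ∀ y ∈ vInf K₁ A₀ M, y ∉ (vInf K₁ A₀ M).nonunits →
        ∃ (n : ℤ) (f s : chartClosure A₀ (ModelField K₁ M) x), f ∉ 𝔫 ∧ s ∉ 𝔫 ∧
          (s : ModelField K₁ M) * y - (f : ModelField K₁ M) * (U : ModelField K₁ M) ^ n ∈
            (vInf K₁ A₀ M).nonunits

end Fermat.Agent.H41.ORD
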