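/-
helper41, P-ORD, block B1, rows 1158 [DVR] / 1157 [XY](c) : THE UNIFORMISER at the centres of the
chart `j` on `C_∞` (the `ℚ̄`-descent of helper7's `modelLevelFactor_h4`).

`H = nmH` the Hauptmodul of level `4` in `F = ℚ̄(X₀(M p))`, `c ∈ A` a value of `H` at the centre of
`P` (`H - c ∈ 𝔐_P`), `τ = red_∞ (H - c)`.  Then `τ` is a uniformiser of `O = red_∞ (B̄_𝔪)` :

* `fc_red_T_ne_zero` : `τ ≠ 0`;
* `nmFactorOo_chartJ` : `τ ∈ O`, `τ⁻¹ ∉ O`, and every `z ≠ 0` of `F_∞` is `ε τ ^ n` with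
  `ε ∈ Oˣ`, `n ∈ ℤ`;
* `nmGenFactor_chartJ` : `GenFactor` at every centre of the chart `j` on `C_∞`.
-/
import Fermat.Agent.H41.ORD.NmValChart
import Fermat.Agent.H41.ORD.DvrInterfaces
import Fermat.Agent.H7.ORD.LevelFactor
import Fermat.Agent.H3.ORD.NmCrossDefs

set_option autoImplicit false
set_option linter.unusedSectionVars false
set_option linter.unusedVariables false
set_option linter.style.haveILetI false
set_option synthInstance.maxHeartbeats 400000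
set_option maxHeartbeats 1600000

noncomputable section

namespace Fermat.Agent.H41.ORD

open Polynomial ModularCurve AlgebraicCurve
open Fermat.Agent.H22.KL Fermat.Agent.H9.E6 Fermat.Agent.H84.ORD Fermat.Agent.H72.FF
open Fermat.Agent.H7.SS Fermat.Agent.H7.SS2 Fermat.Agent.H66 Fermat.Agent.H66.ORD
open Fermat.Agent.H30.ORD Fermat.Agent.H82.SS Fermat.Agent.H11.SS2 Fermat.Agent.H71.SS
open Fermat.Agent.H8.SS Fermat.Agent.H3.ORD Fermat.Agent.H67.SS
open Fermat.Agent.H41.SS (ordPoint_exists_monic etale_aeval_mem_chartClosure)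
open Fermat.Agent.H93.KL (klBc)

section Red

variable {M p : ℕ} [NeZero M] [NeZero p] (A : ValuationSubring Qb) (h4 : 4 ∣ M)

/-- `T = H - c` -/
def fcT (M p : ℕ) [NeZero M] [NeZero p] (h4 : 4 ∣ M) (c : Qb) : FLb (M * p) :=
  nmH M p h4 - algebraMap Qb (FLb (M * p)) c

theorem fc_nmH_series : ((nmH M p h4 : FLb (M * p)) : LaurentSeries Qb) = vIota A (h4S ↥A) := by
  rw [coe_nmH]
  exact (coeffMap_h4S A.subtype).symm

theorem fc_nmH_mem : nmH M p h4 ∈ gaussOBar (M * p) A :=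
  mem_gaussOBar_of_eq_vIota (M * p) A (fc_nmH_series A h4)

theorem fc_red_nmH :
    gaussRedBar (M * p) A ⟨nmH M p h4, fc_nmH_mem A h4⟩ = h4S (kRes A) := by
  rw [gaussRedBar_of_eq_vIota (M * p) A (fc_nmH_series A h4)]
  exact coeffMap_h4S _

theorem fc_T_mem {c : Qb} (hc : c ∈ A) : fcT M p h4 c ∈ gaussOBar (M * p) A :=
  (gaussOBar (M * p) A).sub_mem (fc_nmH_mem A h4) ((algebraMap_mem_gaussOBar_iff (M * p) A c).2 hc)

/-- `τ = red_∞ (H - c) ≠ 0` -/
theorem fc_red_T_ne_zero {c : Qb} (hc : c ∈ A) (hT : fcT M p h4 c ∈ gaussOBar (M * p) A) :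
    nmRedOo (M * p) A ⟨fcT M p h4 c, hT⟩ ≠ 0 := by
  intro h0
  rw [nmRedOo_eq_zero_iff] at h0
  have e : (⟨fcT M p h4 c, hT⟩ : ↥(gaussOBar (M * p) A)) =
      ⟨nmH M p h4, fc_nmH_mem A h4⟩ -
        ⟨algebraMap Qb (FLb (M * p)) c, (algebraMap_mem_gaussOBar_iff (M * p) A c).2 hc⟩ :=
    Subtype.ext rfl
  rw [e, map_sub, fc_red_nmH, gaussRedBar_algebraMap (M * p) A hc, sub_eq_zero] at h0
  have h1 := congrArg (fun s : LaurentSeries (kRes A) => s.coeff (-1)) h0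
  simp only [h4S_coeff_neg_one, algebraMap_laurentSeries_eq_single] at h1
  rw [HahnSeries.coeff_single_of_ne (by norm_num)] at h1
  exact one_ne_zero h1

end Red

section Descent

variable {M p : ℕ} [NeZero M] [NeZero p]

/-- integral powers of a unit of a subring -/
theorem fc_zpow_mem {F : Type*} [Field F] (V : Subring F) {x : F} (hx : x ∈ V) (hi : x⁻¹ ∈ V)
    (n : ℤ) : x ^ n ∈ V := by
  rcases le_total 0 n with hn | hn
  · obtain ⟨m, rfl⟩ := Int.eq_ofNat_of_zero_le hn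
    rw [zpow_natCast]
    exact V.pow_mem hx m
  · obtain ⟨m, hm⟩ := Int.eq_ofNat_of_zero_le (neg_nonneg.2 hn)
    have hn' : n = -(m : ℤ) := by omega
    rw [hn', zpow_neg, zpow_natCast, ← inv_pow]
    exact V.pow_mem hi m

/-- a ring homomorphism from a subring to a field commutes with integral powers of units -/
theorem fc_red_zpow {F Fk : Type*} [Field F] [Field Fk] (V : Subring F) (red : V →+* Fk)
    {x : F} (hx : x ∈ V) (hi : x⁻¹ ∈ V) (hx0 : x ≠ 0) (n : ℤ) (hn : x ^ n ∈ V) :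
    red ⟨x ^ n, hn⟩ = (red ⟨x, hx⟩) ^ n := by
  have hinv : red ⟨x⁻¹, hi⟩ = (red ⟨x, hx⟩)⁻¹ := by
    have h1 : red ⟨x, hx⟩ * red ⟨x⁻¹, hi⟩ = 1 := by
      rw [← map_mul]
      have e : (⟨x, hx⟩ : V) * ⟨x⁻¹, hi⟩ = 1 := Subtype.ext (mul_inv_cancel₀ hx0)
      rw [e, map_one]
    exact eq_inv_of_mul_eq_one_right h1
  rcases le_total 0 n with h0 | h0
  · obtain ⟨m, rfl⟩ := Int.eq_ofNat_of_zero_le h0
    have e : (⟨x ^ (m : ℤ), hn⟩ : V) = ⟨x, hx⟩ ^ m := Subtype.ext (zpow_natCast x m)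
    rw [e, map_pow, zpow_natCast]
  · obtain ⟨m, hm⟩ := Int.eq_ofNat_of_zero_le (neg_nonneg.2 h0)
    have hn' : n = -(m : ℤ) := by omega
    subst hn'
    have e : (⟨x ^ (-(m : ℤ)), hn⟩ : V) = ⟨x⁻¹, hi⟩ ^ m :=
      Subtype.ext (by
        show x ^ (-(m : ℤ)) = (x⁻¹) ^ m
        rw [zpow_neg, zpow_natCast, inv_pow])
    rw [e, map_pow, hinv, zpow_neg, zpow_natCast, inv_pow]

/-- **THE DESCENT** of `ModelLevelFactorStatement` : with a test element `Y` of level `M`. -/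
theorem fc_level (hS : NmSoftStatement M p) (hcore : ModelLevelFactorStatement M p)
    (A : ValuationSubring Qb) (h : NmSetup M p A) (P : Place Qb (FLb (M * p)))
    (hy : nmY A P = nmJ (M * p)) (hI : NmIdealOo M p A P)
    (c : Qb) (hc : c ∈ A)
    (Y : LaurentSeries Qb) (hY : Y ∈ modularFunctionFieldBar M) (hYV : Y ∈ vGaussRing A)
    (hYne : vGaussRed A ⟨Y, hYV⟩ ≠ 0) :
    fcT M p h.four c ∈ nmChart (M * p) A (nmY A P) ∧
    (fcT M p h.four c ∈ nmMax A P →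
    ∃ (n : ℤ) (f s : FLb (M * p)) (hf : f ∈ gaussOBar (M * p) A)
      (hs : s ∈ gaussOBar (M * p) A),
      f ∈ nmChart (M * p) A (nmY A P) ∧ s ∈ nmChart (M * p) A (nmY A P) ∧
      f ∉ nmMax A P ∧ s ∉ nmMax A P ∧
      gaussRedBar (M * p) A ⟨s, hs⟩ * vGaussRed A ⟨Y, hYV⟩ =
        gaussRedBar (M * p) A ⟨f, hf⟩ *
          (gaussRedBar (M * p) A ⟨fcT M p h.four c, fc_T_mem A h.four hc⟩) ^ n) := by
  classical
  have H : NmBase M p A := nmBase_of_soft hS h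
  have hdeg : P.deg = 1 := H.deg P
  have hp : p.Prime := h.prime
  have hpM : ¬ p ∣ M := (Nat.Prime.coprime_iff_not_dvd hp).1 h.cop.symm
  have h4 : 4 ∣ M := h.four
  haveI : Fact p.Prime := ⟨hp⟩
  haveI : NeZero (M * p) := ⟨Nat.mul_ne_zero (NeZero.ne M) (NeZero.ne p)⟩
  -- the number field
  obtain ⟨K₀, hfd₀, hK₀⟩ := Fermat.Agent.H61.coeffDescent (modularFunctionFieldFull M) Y hY
  haveI := hfd₀
  haveI : FiniteDimensional ℚ ↥(IntermediateField.adjoin ℚ ({c} : Set Qb)) :=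
    IntermediateField.finiteDimensional_adjoin
      (fun x _ => ((AlgebraicClosure.isAlgebraic ℚ).isAlgebraic x).isIntegral)
  set K : IntermediateField ℚ Qb := K₀ ⊔ IntermediateField.adjoin ℚ ({c} : Set Qb) with hK
  haveI hfd : FiniteDimensional ℚ ↥K := IntermediateField.finiteDimensional_sup _ _
  set ι : ↥K →+* Qb := algebraMap ↥K Qb with hι
  haveI : NumberField ↥K := ordNumberField_of_fd ↥K
  have hpL : ((p : ℕ) : Qb) ≠ 0 := Nat.cast_ne_zero.mpr hp.ne_zero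
  haveI hDVR : IsDiscreteValuationRing ↥(A.comap ι) :=
    Fermat.Agent.H93.KL.comap_isDiscreteValuationRing ι A hpL h.liesOver
  obtain ⟨ϖ, hϖ⟩ := IsDiscreteValuationRing.exists_irreducible ↥(A.comap ι)
  letI iMp := modelAlgebra ↥K (A.comap ι) (M * p)
  haveI := modelAlgebra_isScalarTower ↥K (A.comap ι) (M * p)
  letI iM := modelAlgebra ↥K (A.comap ι) M
  haveI := modelAlgebra_isScalarTower ↥K (A.comap ι) M
  haveI : CharZero ↥K := algebraRat.charZero ↥K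
  haveI : CharZero (ModelField ↥K M) :=
    charZero_of_injective_algebraMap (algebraMap ↥K (ModelField ↥K M)).injective
  haveI : CharZero (ModelField ↥K (M * p)) :=
    charZero_of_injective_algebraMap (algebraMap ↥K (ModelField ↥K (M * p))).injective
  have hnu : ¬ IsUnit ((p : ℕ) : ↥(A.comap ι)) := by
    have h1 := Fermat.Agent.H93.KL.natCast_mem_nonunits_comap ι A h.liesOver
    rw [ValuationSubring.mem_nonunits_iff_exists_mem_maximalIdeal] at h1
    obtain ⟨hmem, hmax⟩ := h1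
    rw [IsLocalRing.mem_maximalIdeal, mem_nonunits_iff] at hmax
    intro hu
    apply hmax
    have e : (⟨(p : ↥K), hmem⟩ : ↥(A.comap ι)) = ((p : ℕ) : ↥(A.comap ι)) :=
      Subtype.ext (by simp)
    rw [e]
    exact hu
  -- the constant
  have hcK : c ∈ K :=
    (le_sup_right : IntermediateField.adjoin ℚ ({c} : Set Qb) ≤ K)
      (IntermediateField.mem_adjoin_simple_self ℚ c)
  set a : ↥(A.comap ι) := ⟨⟨c, hcK⟩, hc⟩ with ha
  -- the test element over the number field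
  obtain ⟨f₁, hf₁, hf₁Y⟩ := hK₀ ↥K ι (fun c' hc' => ⟨⟨c', (le_sup_left : K₀ ≤ K) hc'⟩, rfl⟩)
  set y₁ : ModelField ↥K M := ⟨f₁, hf₁⟩ with hy₁
  -- the coordinates
  set x' : ModelField ↥K M :=
    Fermat.Agent.H62.SS.ratK (K₁ := ↥K) (modularFunctionFieldFull M) (nmJq M) with hx'
  set x : ModelField ↥K (M * p) :=
    Fermat.Agent.H62.SS.ratK (K₁ := ↥K) (modularFunctionFieldFull (M * p)) (nmJq (M * p)) with hx
  have hx's : (x' : LaurentSeries ↥K) = coeffEmb ↥K jq := rfl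
  have hxs : (x : LaurentSeries ↥K) = coeffEmb ↥K jq := rfl
  set ια : ModelField ↥K M →+* ModelField ↥K (M * p) :=
    ((heckeAlphaBar ↥K M p : ModelField ↥K M →ₐ[↥K] ModelField ↥K (M * p)) :
      ModelField ↥K M →+* ModelField ↥K (M * p)) with hιαdef
  have hιαs : ∀ w : ModelField ↥K M,
      ((ια w : ModelField ↥K (M * p)) : LaurentSeries ↥K) = (w : LaurentSeries ↥K) :=
    fun w => coe_heckeAlphaBar M p w
  have hιx : ια x' = x := Subtype.ext (by rw [hιαs, hx's, hxs])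
  have hια : ∀ b : ↥(A.comap ι), ια (algebraMap ↥(A.comap ι) (ModelField ↥K M) b) =
      algebraMap ↥(A.comap ι) (ModelField ↥K (M * p)) b := by
    intro b
    rw [IsScalarTower.algebraMap_apply ↥(A.comap ι) ↥K (ModelField ↥K M),
      IsScalarTower.algebraMap_apply ↥(A.comap ι) ↥K (ModelField ↥K (M * p))]
    exact (heckeAlphaBar ↥K M p).commutes _
  have hαB : ∀ s' : chartClosure ↥(A.comap ι) (ModelField ↥K M) x',
      ια (s' : ModelField ↥K M) ∈ chartClosure ↥(A.comap ι) (ModelField ↥K (M * p)) x := by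
    intro s'
    have h := ktfl_map_mem_chartClosure ια hια s'.2
    rwa [hιx] at h
  have hxy : ddBc ι (M * p) x = nmY A P := by
    rw [hy, nmJ_eq_ratBar (M * p)]
    exact ddBc_eq_of_coeffEmb ι (M * p) x _ jq hxs rfl
  -- the centre
  have hy' := ddBc_y_mem_nmComp M p ι A P hdeg x hxy
  set 𝔪 := ddCentre ι A (M * p) P hdeg x hy' with h𝔪
  have h𝔪max : 𝔪.IsMaximal := ddCentre_isMaximal ι A (M * p) P hdeg x hy'
  haveI h𝔪p : 𝔪.IsPrime := h𝔪max.isPrime
  have hϖ𝔪 : algebraMap ↥(A.comap ι) ↥(chartClosure ↥(A.comap ι) (ModelField ↥K (M * p)) x) ϖ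
      ∈ 𝔪 := algebraMap_mem_ddCentre ι A (M * p) P hdeg x hy' hϖ.not_isUnit
  -- the contraction to level `M`
  have h1𝔪 : (1 : chartClosure ↥(A.comap ι) (ModelField ↥K (M * p)) x) ∉ 𝔪 :=
    fun h => h𝔪p.ne_top ((Ideal.eq_top_iff_one _).2 h)
  have hιBloc : ∀ s' : chartClosure ↥(A.comap ι) (ModelField ↥K M) x',
      ∃ b : chartClosure ↥(A.comap ι) (ModelField ↥K (M * p)) x, b ∉ 𝔪 ∧
        (b : ModelField ↥K (M * p)) * ια (s' : ModelField ↥K M) ∈
          chartClosure ↥(A.comap ι) (ModelField ↥K (M * p)) x := by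
    intro s'
    refine ⟨1, h1𝔪, ?_⟩
    have e : ((1 : chartClosure ↥(A.comap ι) (ModelField ↥K (M * p)) x) :
        ModelField ↥K (M * p)) * ια (s' : ModelField ↥K M) = ια (s' : ModelField ↥K M) := by
      rw [OneMemClass.coe_one, one_mul]
    rw [e]
    exact hαB s'
  haveI hp' := pullIdeal_isPrime ια x' x 𝔪 hιBloc
  set 𝔫 := pullIdeal ια x' x 𝔪 hιBloc with h𝔫
  have h𝔫iff : ∀ s' : chartClosure ↥(A.comap ι) (ModelField ↥K M) x',
      s' ∈ 𝔫 ↔ ddBc ι (M * p) (ια (s' : ModelField ↥K M)) ∈ nmMax A P := by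
    intro s'
    rw [← mem_ddCentre_iff ι A (M * p) P hdeg x hy' ⟨ια (s' : ModelField ↥K M), hαB s'⟩]
    constructor
    · rintro ⟨b, t, hb, ht, hbt⟩
      have e : b * ⟨ια (s' : ModelField ↥K M), hαB s'⟩ = t := Subtype.ext hbt
      have hmem : b * ⟨ια (s' : ModelField ↥K M), hαB s'⟩ ∈ 𝔪 := by rw [e]; exact ht
      exact (h𝔪p.mem_or_mem hmem).resolve_left hb
    · intro hmem
      refine ⟨1, ⟨ια (s' : ModelField ↥K M), hαB s'⟩, h1𝔪, hmem, ?_⟩
      rw [OneMemClass.coe_one, one_mul]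
  have hϖ' : algebraMap ↥(A.comap ι) (chartClosure ↥(A.comap ι) (ModelField ↥K M) x') ϖ ∈ 𝔫 := by
    refine ⟨1, algebraMap ↥(A.comap ι) (chartClosure ↥(A.comap ι) (ModelField ↥K (M * p)) x) ϖ,
      h1𝔪, hϖ𝔪, ?_⟩
    show ((1 : chartClosure ↥(A.comap ι) (ModelField ↥K (M * p)) x) : ModelField ↥K (M * p)) *
      ια (algebraMap ↥(A.comap ι) (ModelField ↥K M) ϖ) =
        algebraMap ↥(A.comap ι) (ModelField ↥K (M * p)) ϖ
    rw [hια, OneMemClass.coe_one, one_mul]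
  obtain ⟨g, hgm, hgirr, hg𝔪⟩ :=
    ordPoint_exists_monic ↥(A.comap ι) (ModelField ↥K (M * p)) ϖ hϖ x 𝔪 h𝔪max hϖ𝔪
  have hg' : evB (A := ↥(A.comap ι)) x' g ∈ 𝔫 := by
    refine ⟨1, ⟨aeval x g, etale_aeval_mem_chartClosure ↥(A.comap ι) (ModelField ↥K (M * p)) x g⟩,
      h1𝔪, hg𝔪, ?_⟩
    show ((1 : chartClosure ↥(A.comap ι) (ModelField ↥K (M * p)) x) : ModelField ↥K (M * p)) *
      ια (aeval x' g) = aeval x g
    rw [OneMemClass.coe_one, one_mul]
    have h2 := congrArg (fun f : (↥(A.comap ι))[X] →+* ModelField ↥K (M * p) => f g)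
      (ktfl_comp_evX ια hια x')
    simp only [RingHom.comp_apply, Fermat.Agent.H87.KL.evX_apply] at h2
    rw [h2, hιx]
  have h𝔫max : 𝔫.IsMaximal := isMaximal_of_isPrime_of_mem hϖ g hgirr _ hϖ' hg'
  -- the Hauptmodul
  set Hm : ModelField ↥K M := ⟨h4S ↥K, h4S_mem_laurentBaseChange ↥K M h4⟩ with hHm
  obtain ⟨hHB, -⟩ := Fermat.Agent.H7.SS2.levelReg_h4_explicit M p hp h.odd hpM h4 ↥K ↥(A.comap ι)
    hnu ϖ hϖ x' hx's Hm rfl 𝔫 h𝔫max hϖ'
  set U : chartClosure ↥(A.comap ι) (ModelField ↥K M) x' :=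
    ⟨Hm - algebraMap ↥(A.comap ι) (ModelField ↥K M) a,
      (chartClosure ↥(A.comap ι) (ModelField ↥K M) x').sub_mem hHB
        (Subalgebra.algebraMap_mem _ a)⟩ with hU
  have hβH : ddBc ι (M * p) (ια Hm) = nmH M p h4 := by
    apply Subtype.ext
    rw [ddBc_coe, hιαs, coe_nmH]
    exact coeffMap_h4S ι
  have hβa : ddBc ι (M * p) (ια (algebraMap ↥(A.comap ι) (ModelField ↥K M) a)) =
      algebraMap Qb (FLb (M * p)) c := by
    rw [hια, ddBc_algebraMap_comap]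
    rfl
  have hβU : ddBc ι (M * p) (ια (U : ModelField ↥K M)) = fcT M p h4 c := by
    show ddBc ι (M * p) (ια (Hm - algebraMap ↥(A.comap ι) (ModelField ↥K M) a)) = _
    rw [map_sub, map_sub, hβH, hβa]
    rfl
  have hTB : fcT M p h4 c ∈ nmChart (M * p) A (nmY A P) := by
    rw [← hβU, ← hxy]
    exact ddBc_mem_nmChart ι A (M * p) x _ (hαB U)
  refine ⟨hTB, fun hcm => ?_⟩
  have hU𝔫 : U ∈ 𝔫 := (h𝔫iff U).2 (by rw [hβU]; exact hcm)
  -- the test element is a unit of `V_∞`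
  have hy₁V : y₁ ∈ vInf ↥K ↥(A.comap ι) M :=
    (mem_vInf_iff y₁).2 (ord_inV_of_bc ι A _ (hasGNF_model ↥K ↥(A.comap ι) M) hf₁
      (by rw [hf₁Y]; exact hYV))
  have hy₁u : y₁ ∉ (vInf ↥K ↥(A.comap ι) M).nonunits := by
    intro hm
    obtain ⟨hz, hred⟩ := ord_bc_inM ι A _ ((mem_nonunits_vInf_iff y₁).1 hm)
    apply hYne
    have e : (⟨Y, hYV⟩ : ↥(vGaussRing A)) = ⟨coeffMap ι f₁, hz⟩ := Subtype.ext hf₁Y.symm
    rw [e]
    exact hred
  obtain ⟨n, f, s, hf, hs, hrel⟩ := hcore ↥K ↥(A.comap ι) hnu ϖ hϖ x' hx's Hm rfl 𝔫 h𝔫max hϖ'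
    a U rfl hU𝔫 y₁ hy₁V hy₁u
  -- go up
  have hFB : ddBc ι (M * p) (ια (f : ModelField ↥K M)) ∈ nmChart (M * p) A (nmY A P) := by
    rw [← hxy]
    exact ddBc_mem_nmChart ι A (M * p) x _ (hαB f)
  have hSB : ddBc ι (M * p) (ια (s : ModelField ↥K M)) ∈ nmChart (M * p) A (nmY A P) := by
    rw [← hxy]
    exact ddBc_mem_nmChart ι A (M * p) x _ (hαB s)
  have hFV := H.chart_le_oo P hFB
  have hSV := H.chart_le_oo P hSB
  have hFm : ddBc ι (M * p) (ια (f : ModelField ↥K M)) ∉ nmMax A P := fun hm =>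
    hf ((h𝔫iff f).2 hm)
  have hSm : ddBc ι (M * p) (ια (s : ModelField ↥K M)) ∉ nmMax A P := fun hm =>
    hs ((h𝔫iff s).2 hm)
  refine ⟨n, _, _, hFV, hSV, hFB, hSB, hFm, hSm, ?_⟩
  -- the relation in `k((q))`
  obtain ⟨hz, hred⟩ := ord_bc_inM ι A _ ((mem_nonunits_vInf_iff _).1 hrel)
  -- the series
  set ψ : ModelField ↥K M →+* LaurentSeries Qb :=
    (coeffMap ι).comp (algebraMap (ModelField ↥K M) (LaurentSeries ↥K)) with hψ
  have hψv : ∀ w : ModelField ↥K M, ψ w = coeffMap ι (w : LaurentSeries ↥K) := fun _ => rfl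
  have hψβ : ∀ w : ModelField ↥K M,
      ((ddBc ι (M * p) (ια w) : FLb (M * p)) : LaurentSeries Qb) = ψ w := by
    intro w
    rw [ddBc_coe, hιαs, hψv]
  have hTs : ((fcT M p h4 c : FLb (M * p)) : LaurentSeries Qb) = ψ (U : ModelField ↥K M) := by
    rw [← hβU, hψβ]
  have hψy : ψ y₁ = Y := hf₁Y
  have hser : coeffMap ι (((s : ModelField ↥K M) * y₁ -
      (f : ModelField ↥K M) * (U : ModelField ↥K M) ^ n : ModelField ↥K M) :
        LaurentSeries ↥K) =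
      ψ (s : ModelField ↥K M) * Y - ψ (f : ModelField ↥K M) * ψ (U : ModelField ↥K M) ^ n := by
    rw [← hψv, map_sub, map_mul, map_mul, map_zpow₀, hψy]
  -- memberships in the Gauss ring of `ℚ̄((q))`
  have hSg : ψ (s : ModelField ↥K M) ∈ vGaussRing A := by rw [← hψβ]; exact hSV
  have hFg : ψ (f : ModelField ↥K M) ∈ vGaussRing A := by rw [← hψβ]; exact hFV
  have hTV : fcT M p h4 c ∈ gaussOBar (M * p) A := fc_T_mem A h4 hc
  have hTne := fc_red_T_ne_zero A h4 hc hTV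
  rw [Ne, nmRedOo_eq_zero_iff] at hTne
  have hUg : ψ (U : ModelField ↥K M) ∈ vGaussRing A := by rw [← hTs]; exact hTV
  have hUi : (ψ (U : ModelField ↥K M))⁻¹ ∈ vGaussRing A := by
    have h1 := inv_mem_gaussOBar (M * p) A (u := ⟨fcT M p h4 c, hTV⟩) hTne
    rw [mem_gaussOBar_iff] at h1
    rw [← hTs]
    simpa using h1
  have hU0 : ψ (U : ModelField ↥K M) ≠ 0 := by
    intro h0
    apply hTne
    rw [gaussRedBar_apply]
    have e : (⟨((fcT M p h4 c : FLb (M * p)) : LaurentSeries Qb), hTV⟩ : ↥(vGaussRing A)) = 0 :=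
      Subtype.ext (by rw [hTs, h0]; rfl)
    rw [show (⟨((⟨fcT M p h4 c, hTV⟩ : ↥(gaussOBar (M * p) A)) : FLb (M * p)), _⟩ :
      ↥(vGaussRing A)) = 0 from e, map_zero]
  have e1 : (⟨_, hz⟩ : ↥(vGaussRing A)) =
      ⟨ψ (s : ModelField ↥K M), hSg⟩ * ⟨Y, hYV⟩ -
        ⟨ψ (f : ModelField ↥K M), hFg⟩ *
          ⟨ψ (U : ModelField ↥K M) ^ n, fc_zpow_mem (vGaussRing A) hUg hUi n⟩ :=
    Subtype.ext hser
  rw [e1, map_sub, map_mul, map_mul, fc_red_zpow (vGaussRing A) (vGaussRed A) hUg hUi hU0 n _,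
    sub_eq_zero] at hred
  have eS : gaussRedBar (M * p) A ⟨ddBc ι (M * p) (ια (s : ModelField ↥K M)), hSV⟩ =
      vGaussRed A ⟨ψ (s : ModelField ↥K M), hSg⟩ := by
    rw [gaussRedBar_apply]
    congr 1
  have eF : gaussRedBar (M * p) A ⟨ddBc ι (M * p) (ια (f : ModelField ↥K M)), hFV⟩ =
      vGaussRed A ⟨ψ (f : ModelField ↥K M), hFg⟩ := by
    rw [gaussRedBar_apply]
    congr 1
  have eT : gaussRedBar (M * p) A ⟨fcT M p h4 c, fc_T_mem A h4 hc⟩ =
      vGaussRed A ⟨ψ (U : ModelField ↥K M), hUg⟩ := by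
    rw [gaussRedBar_apply]
    congr 1
    exact Subtype.ext hTs
  rw [eS, eF, eT]
  exact hred

end Descent

section Main

variable {M p : ℕ} [NeZero M] [NeZero p]

/-- `H - c ∈ B̄(j)` -/
theorem fc_T_mem_nmChart (hS : NmSoftStatement M p) (hcore : ModelLevelFactorStatement M p)
    (A : ValuationSubring Qb) (h : NmSetup M p A) (P : Place Qb (FLb (M * p)))
    (hy : nmY A P = nmJ (M * p)) (hI : NmIdealOo M p A P) (c : Qb) (hc : c ∈ A) :
    fcT M p h.four c ∈ nmChart (M * p) A (nmY A P) :=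
  (fc_level hS hcore A h P hy hI c hc 1 (one_mem _) (one_mem _) (by
    rw [show (⟨1, one_mem _⟩ : ↥(vGaussRing A)) = 1 from rfl, map_one]
    exact one_ne_zero)).1

/-- **THE UNIFORMISER at a centre of the chart `j` on `C_∞`** (from the level-`M` core). -/
theorem nmFactorOo_chartJ_of (hS : NmSoftStatement M p)
    (hcore : ModelLevelFactorStatement M p)
    (A : ValuationSubring Qb) (h : NmSetup M p A) (P : Place Qb (FLb (M * p)))
    (hy : nmY A P = nmJ (M * p)) (hI : NmIdealOo M p A P) (c : Qb) (hc : c ∈ A)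
    (hcm : fcT M p h.four c ∈ nmMax A P) :
    GenLocal A (gaussOBar (M * p) A) (nmRedOo (M * p) A) P
        (nmRedOo (M * p) A ⟨fcT M p h.four c, fc_T_mem A h.four hc⟩) ∧
      ¬ GenLocal A (gaussOBar (M * p) A) (nmRedOo (M * p) A) P
        (nmRedOo (M * p) A ⟨fcT M p h.four c, fc_T_mem A h.four hc⟩)⁻¹ ∧
      ∀ z : NmF (M * p) A, z ≠ 0 → ∃ (n : ℤ) (ε : NmF (M * p) A),
        GenLocal A (gaussOBar (M * p) A) (nmRedOo (M * p) A) P ε ∧
        GenLocal A (gaussOBar (M * p) A) (nmRedOo (M * p) A) P ε⁻¹ ∧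
        z = ε * (nmRedOo (M * p) A ⟨fcT M p h.four c, fc_T_mem A h.four hc⟩) ^ n := by
  classical
  have H : NmBase M p A := nmBase_of_soft hS h
  have hp : p.Prime := h.prime
  have hpM : ¬ p ∣ M := (Nat.Prime.coprime_iff_not_dvd hp).1 h.cop.symm
  haveI : NeZero (M * p) := ⟨Nat.mul_ne_zero (NeZero.ne M) (NeZero.ne p)⟩
  have hTB := fc_T_mem_nmChart hS hcore A h P hy hI c hc
  have hTV := fc_T_mem (M := M) (p := p) A h.four hc
  refine ⟨genLocal_red P H.oo hTB hTV,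
    genLocal_centre_not_unit P H.oo hI ⟨hTB, hcm⟩ hTV (fc_red_T_ne_zero A h.four hc hTV), ?_⟩
  intro z hz
  obtain ⟨u, hu⟩ := nmRedOo_surjective (M * p) A z
  obtain ⟨Y, hY, hYV, hred⟩ := gaussRange_mul_exists M p hp hpM A h.liesOver
    ((u : FLb (M * p)) : LaurentSeries Qb) (u : FLb (M * p)).2 u.2
  have hzser : ((z : NmF (M * p) A) : LaurentSeries (kRes A)) = vGaussRed A ⟨Y, hYV⟩ := by
    rw [← hu, coe_nmRedOo, gaussRedBar_apply]
    exact hred
  have hYne : vGaussRed A ⟨Y, hYV⟩ ≠ 0 := by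
    rw [← hzser]
    intro h0
    exact hz (Subtype.ext h0)
  obtain ⟨n, f, s, hf, hs, hfB, hsB, hfm, hsm, hrel⟩ :=
    (fc_level hS hcore A h P hy hI c hc Y hY hYV hYne).2 hcm
  set τ : NmF (M * p) A := nmRedOo (M * p) A ⟨fcT M p h.four c, fc_T_mem A h.four hc⟩ with hτ
  have hrel' : nmRedOo (M * p) A ⟨s, hs⟩ * z = nmRedOo (M * p) A ⟨f, hf⟩ * τ ^ n := by
    apply (nmResField (M * p) A).val.injective
    rw [map_mul, map_mul, map_zpow₀]
    show ((nmRedOo (M * p) A ⟨s, hs⟩ : NmF (M * p) A) : LaurentSeries (kRes A)) *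
        ((z : NmF (M * p) A) : LaurentSeries (kRes A)) =
      ((nmRedOo (M * p) A ⟨f, hf⟩ : NmF (M * p) A) : LaurentSeries (kRes A)) *
        ((τ : NmF (M * p) A) : LaurentSeries (kRes A)) ^ n
    rw [coe_nmRedOo, coe_nmRedOo, hτ, coe_nmRedOo, hzser]
    exact hrel
  have hs0 : nmRedOo (M * p) A ⟨s, hs⟩ ≠ 0 := fun h0 => hsm (hI s hsB hs h0)
  have hf0 : nmRedOo (M * p) A ⟨f, hf⟩ ≠ 0 := fun h0 => hfm (hI f hfB hf h0)
  refine ⟨n, nmRedOo (M * p) A ⟨f, hf⟩ / nmRedOo (M * p) A ⟨s, hs⟩, ?_, ?_, ?_⟩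
  · exact ⟨f, s, hf, hs, hfB, hsB, hsm, (div_mul_cancel₀ _ hs0).symm⟩
  · refine ⟨s, f, hs, hf, hsB, hfB, hfm, ?_⟩
    rw [inv_div, div_mul_cancel₀ _ hf0]
  · have e : z = (nmRedOo (M * p) A ⟨s, hs⟩)⁻¹ * (nmRedOo (M * p) A ⟨s, hs⟩ * z) := by
      rw [← mul_assoc, inv_mul_cancel₀ hs0, one_mul]
    rw [e, hrel', div_eq_mul_inv]
    ring

/-- **`GenFactor` at the centres of the chart `j` on `C_∞`** (from the level-`M` core). -/
theorem nmGenFactor_chartJ_of (hS : NmSoftStatement M p)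
    (hcore : ModelLevelFactorStatement M p)
    (A : ValuationSubring Qb) (h : NmSetup M p A) (P : Place Qb (FLb (M * p)))
    (hy : nmY A P = nmJ (M * p)) (hI : NmIdealOo M p A P) :
    GenFactor A (gaussOBar (M * p) A) (nmRedOo (M * p) A) P := by
  have H : NmBase M p A := nmBase_of_soft hS h
  have h0 := fc_T_mem_nmChart hS hcore A h P hy hI 0 A.zero_mem
  have hH : nmH M p h.four ∈ nmChart (M * p) A (nmY A P) := by
    have e : fcT M p h.four 0 = nmH M p h.four := by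
      unfold fcT
      rw [map_zero, sub_zero]
    rwa [e] at h0
  obtain ⟨c, hcA, hv, hcen⟩ := nmChart_decomp P (H.deg P) hH
  exact ⟨_, nmFactorOo_chartJ_of hS hcore A h P hy hI c hcA hcen.2⟩

/-- **THE UNIFORMISER at a centre of the chart `j` on `C_∞`**, UNCONDITIONAL. -/
theorem nmFactorOo_chartJ (hS : NmSoftStatement M p)
    (A : ValuationSubring Qb) (h : NmSetup M p A) (P : Place Qb (FLb (M * p)))
    (hy : nmY A P = nmJ (M * p)) (hI : NmIdealOo M p A P) (c : Qb) (hc : c ∈ A)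
    (hcm : fcT M p h.four c ∈ nmMax A P) :
    GenLocal A (gaussOBar (M * p) A) (nmRedOo (M * p) A) P
        (nmRedOo (M * p) A ⟨fcT M p h.four c, fc_T_mem A h.four hc⟩) ∧
      ¬ GenLocal A (gaussOBar (M * p) A) (nmRedOo (M * p) A) P
        (nmRedOo (M * p) A ⟨fcT M p h.four c, fc_T_mem A h.four hc⟩)⁻¹ ∧
      ∀ z : NmF (M * p) A, z ≠ 0 → ∃ (n : ℤ) (ε : NmF (M * p) A),
        GenLocal A (gaussOBar (M * p) A) (nmRedOo (M * p) A) P ε ∧
        GenLocal A (gaussOBar (M * p) A) (nmRedOo (M * p) A) P ε⁻¹ ∧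
        z = ε * (nmRedOo (M * p) A ⟨fcT M p h.four c, fc_T_mem A h.four hc⟩) ^ n :=
  nmFactorOo_chartJ_of hS
    (Fermat.Agent.H7.ORD.modelLevelFactor_h4 M p h.prime h.odd
      ((Nat.Prime.coprime_iff_not_dvd h.prime).1 h.cop.symm) h.four) A h P hy hI c hc hcm

/-- **`GenFactor` at the centres of the chart `j` on `C_∞`**, UNCONDITIONAL. -/
theorem nmGenFactor_chartJ (hS : NmSoftStatement M p)
    (A : ValuationSubring Qb) (h : NmSetup M p A) (P : Place Qb (FLb (M * p)))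
    (hy : nmY A P = nmJ (M * p)) (hI : NmIdealOo M p A P) :
    GenFactor A (gaussOBar (M * p) A) (nmRedOo (M * p) A) P :=
  nmGenFactor_chartJ_of hS
    (Fermat.Agent.H7.ORD.modelLevelFactor_h4 M p h.prime h.odd
      ((Nat.Prime.coprime_iff_not_dvd h.prime).1 h.cop.symm) h.four) A h P hy hI

/-- `H ∈ B̄(j)`, `H - c ∈ B̄(j)` at the centres of the chart `j` on `C_∞`. -/
theorem nmH_mem_nmChart (hS : NmSoftStatement M p)
    (A : ValuationSubring Qb) (h : NmSetup M p A) (P : Place Qb (FLb (M * p)))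
    (hy : nmY A P = nmJ (M * p)) (hI : NmIdealOo M p A P) :
    nmH M p h.four ∈ nmChart (M * p) A (nmY A P) := by
  have h0 := fc_T_mem_nmChart hS
    (Fermat.Agent.H7.ORD.modelLevelFactor_h4 M p h.prime h.odd
      ((Nat.Prime.coprime_iff_not_dvd h.prime).1 h.cop.symm) h.four) A h P hy hI 0 A.zero_mem
  have e : fcT M p h.four 0 = nmH M p h.four := by
    unfold fcT
    rw [map_zero, sub_zero]
  rwa [e] at h0

end Main

end Fermat.Agent.H41.ORD

end
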