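/-
helper41, P-ORD, block B1, row 1158 [DVR] : GLUE.

* `genLocal_or_inv_of_factor` : a factorisation (`GenFactor`) gives the valuation property;
* `NmFactorNonNodeStatement M p` : (F3) the factorisation at the centres on `C_∞` which are not
  on `C_0` (covers the cusps: the centres of the chart `1/j` are not nodes, helper7 `nmNonCusp`);
* `nmValOo_of_nonNode` : [VAL] at all centres on `C_∞` from the chart `j` (`nmValOo_chartJ`,
  unconditional) and (F3);
* `nmDvrOo_of_val_nonNode`, `nmDvrOo_of_val_cusp` : [DVR], component `∞`, from "VAL ⟹ DVR"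
  (helper82) and either form of the cusp input.
-/
import Fermat.Agent.H41.ORD.NmValChart
import Fermat.Agent.H41.ORD.DvrInterfaces
import Fermat.Agent.H7.ORD.NmNonCusp

set_option autoImplicit false
set_option linter.unusedSectionVars false
set_option linter.unusedVariables false

noncomputable section

open AlgebraicCurve ModularCurve

namespace Fermat.Agent.H41.ORD

open Fermat.Agent.H72.FF Fermat.Agent.H18.ORD Fermat.Agent.H84.ORD Fermat.Agent.H66
open Fermat.Agent.H22.KL Fermat.Agent.H71.SS

section Gen

variable {N : ℕ} [NeZero N] {A : ValuationSubring Qb} {Fk : Type} [Field Fk]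
  [Algebra (kRes A) Fk] {V : Subring (FLb N)} {red : V →+* Fk}

/-- **a factorisation gives the valuation property** -/
theorem genLocal_or_inv_of_factor (P : Place Qb (FLb N)) (H : CompSoft A V red)
    (hfac : GenFactor A V red P) (z : Fk) :
    GenLocal A V red P z ∨ GenLocal A V red P z⁻¹ := by
  obtain ⟨τ, hτ, hτi, hfac⟩ := hfac
  by_cases hz : z = 0
  · left
    rw [hz]
    exact genLocal_zero P H
  obtain ⟨n, ε, hε, hεi, rfl⟩ := hfac z hz
  rcases le_total 0 n with hn | hn
  · left
    obtain ⟨m, rfl⟩ := Int.eq_ofNat_of_zero_le hn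
    rw [zpow_natCast]
    exact genLocal_mul P H hε (genLocal_pow P H hτ m)
  · right
    obtain ⟨m, hm⟩ := Int.eq_ofNat_of_zero_le (neg_nonneg.2 hn)
    have e : (ε * τ ^ n)⁻¹ = ε⁻¹ * τ ^ m := by
      rw [mul_inv, ← zpow_neg, hm, zpow_natCast]
    rw [e]
    exact genLocal_mul P H hεi (genLocal_pow P H hτ m)

end Gen

variable {M p : ℕ} [NeZero M] [NeZero p]

/-- **(F3)** the factorisation at the centres on `C_∞` which are not on `C_0`. -/
def NmFactorNonNodeStatement (M p : ℕ) [NeZero M] [NeZero p] : Prop :=
  ∀ (A : ValuationSubring Qb) (h : NmSetup M p A) (P : Place Qb (FLb (M * p))),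
    NmIdealOo M p A P → ¬ NmIdealZero M p h.cop A P →
    GenFactor A (gaussOBar (M * p) A) (nmRedOo (M * p) A) P

/-- **[VAL], component `∞`**, from (F3) (the chart `j` is unconditional). -/
theorem nmValOo_of_nonNode (hS : NmSoftStatement M p) (hF : NmFactorNonNodeStatement M p) :
    NmValOoStatement M p := by
  intro A h P hI z
  by_cases h0 : NmIdealZero M p h.cop A P
  · exact nmValOo_chartJ hS A h P (Fermat.Agent.H7.ORD.nmNonCusp M p A h P hI h0) hI z
  · have H : NmBase M p A := nmBase_of_soft hS h
    exact genLocal_or_inv_of_factor P H.oo (hF A h P hI h0) z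

/-- **[DVR], component `∞`**, from "VAL ⟹ DVR" and (F3). -/
theorem nmDvrOo_of_val_nonNode (hS : NmSoftStatement M p)
    (hD : NmValOoStatement M p → NmDvrOoStatement M p)
    (hF : NmFactorNonNodeStatement M p) : NmDvrOoStatement M p :=
  hD (nmValOo_of_nonNode hS hF)

/-- **[DVR], component `∞`**, from "VAL ⟹ DVR" and the cusp core. -/
theorem nmDvrOo_of_val_cusp (hS : NmSoftStatement M p)
    (hD : NmValOoStatement M p → NmDvrOoStatement M p)
    (hcusp : ModelValGenStatement M p (ktAuxRoot M p) (jq)⁻¹ True) : NmDvrOoStatement M p :=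
  hD (nmValOo_of_cusp hcusp hS)

end Fermat.Agent.H41.ORD

end
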