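/-
helper41, P-ORD, block B1, row 1158 [DVR] : FINAL ASSEMBLY of the component `∞` along the
FACTORISATION route (no input from "VAL ⟹ DVR").

* `nmFactorOo_of_nonNode` : `NmFactorOoStatement M p` from (F3) `NmFactorNonNodeStatement M p`
  (the chart `j` is `nmGenFactor_chartJ`, unconditional; the nodes are centres of the chart `j`,
  helper7 `nmNonCusp`);
* `nmDvrOo_of_nonNode` : `NmDvrOoStatement M p` from (F3).
-/
import Fermat.Agent.H41.ORD.FactorChart
import Fermat.Agent.H41.ORD.ValGlue

set_option autoImplicit false
set_option linter.unusedSectionVars false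
set_option linter.unusedVariables false

noncomputable section

open AlgebraicCurve ModularCurve

namespace Fermat.Agent.H41.ORD

open Fermat.Agent.H72.FF Fermat.Agent.H18.ORD Fermat.Agent.H84.ORD Fermat.Agent.H66

variable {M p : ℕ} [NeZero M] [NeZero p]

/-- **`GenFactor` at all centres on `C_∞`**, from (F3). -/
theorem nmFactorOo_of_nonNode (hS : NmSoftStatement M p) (hF : NmFactorNonNodeStatement M p) :
    NmFactorOoStatement M p := by
  intro A h P hI
  by_cases h0 : NmIdealZero M p h.cop A P
  · exact nmGenFactor_chartJ hS A h P (Fermat.Agent.H7.ORD.nmNonCusp M p A h P hI h0) hI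
  · exact hF A h P hI h0

/-- **[DVR], component `∞`**, from (F3). -/
theorem nmDvrOo_of_nonNode (hS : NmSoftStatement M p) (hF : NmFactorNonNodeStatement M p) :
    NmDvrOoStatement M p :=
  nmDvrOo_of_factor hS (nmFactorOo_of_nonNode hS hF)

end Fermat.Agent.H41.ORD

end
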