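import Mathlib
import Fermat.Agent.H60.SS2.PrimeVal

/-!
# P-ORD (S33), block B1-M2 (helper41) : factorisation at a smooth point, abstract core

Mathlib + helper60's `LocalUFD` / `PrimeVal` only.  `R` a noetherian local domain with
`𝔪 = (x1, x2)`, `x1` a prime element, `x1 ∤ x2` (a two-dimensional regular local ring with the
branch `x1 = 0`), `E = Frac R`.

* `reg2_assoc_of_dvd_linear` : if `x1 ∣ c`, a prime divisor of `x2 - c` is associated to
  `x2 - c`;  `reg2_linear_prime` : `x2 - c` is a prime element.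
* `reg2_factor` : let `u ∈ Eˣ` be a unit of `R_(x1)` such that every prime `f ∤ x1` at which `u`
  is not a unit divides some `x2 - ι i` (`ι : I → R` a family of multiples of `x1`: in the
  application the constants `c ∈ ϖ A₀`, and the hypothesis says that the zeros and poles of `u`
  in the residue disc are rational).  Then
  `u * ∏_{i ∈ T'} (x2 - ι i) = e * ∏_{i ∈ T} (x2 - ι i)` with `e ∈ Rˣ` and multisets `T`, `T'`
  of indices.
-/

set_option autoImplicit false
set_option linter.unusedSectionVars false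
set_option linter.style.haveILetI false

namespace Fermat.Agent.H41.ORD

open IsLocalRing Fermat.Agent.H60.SS2

section Abs

variable {R : Type*} [CommRing R] [IsDomain R] [IsLocalRing R] [IsNoetherianRing R]
variable {E : Type*} [Field E] [Algebra R E] [IsFractionRing R E]
variable {x1 x2 : R}

/-- If `x1 ∣ c`, every prime divisor of `x2 - c` is associated to `x2 - c`. -/
theorem reg2_assoc_of_dvd_linear (hmax : maximalIdeal R = Ideal.span {x1, x2})
    (hprime : Prime x1) (hx2 : ¬ x1 ∣ x2) {c f : R} (hc : x1 ∣ c) (hf : Prime f)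
    (hfd : f ∣ x2 - c) : Associated f (x2 - c) := by
  obtain ⟨g, hg⟩ := hfd
  obtain ⟨c', rfl⟩ := hc
  have hgu : IsUnit g := by
    by_contra hgn
    have hgm : g ∈ maximalIdeal R := (IsLocalRing.mem_maximalIdeal g).2 hgn
    rw [hmax, Ideal.mem_span_pair] at hgm
    obtain ⟨α, β, hαβ⟩ := hgm
    have hfm : f ∈ maximalIdeal R := (IsLocalRing.mem_maximalIdeal f).2 hf.not_isUnit
    have hunit : IsUnit (1 - f * β) := by
      by_contra hn
      have h1 : 1 - f * β ∈ maximalIdeal R := (IsLocalRing.mem_maximalIdeal _).2 hn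
      have h2 : (1 : R) ∈ maximalIdeal R := by
        have : (1 : R) = (1 - f * β) + f * β := by ring
        rw [this]
        exact (maximalIdeal R).add_mem h1 ((maximalIdeal R).mul_mem_right β hfm)
      exact (IsLocalRing.mem_maximalIdeal _).1 h2 isUnit_one
    have key : (x2 - x1 * c') * (1 - f * β) = x1 * (f * (α + β * c')) := by
      have e1 : x2 - x1 * c' = f * (α * x1 + β * x2) := by rw [hαβ]; exact hg
      have e2 : (x2 - x1 * c') * (1 - f * β) = (x2 - x1 * c') - f * β * (x2 - x1 * c') := by ring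
      rw [e2]
      nth_rewrite 1 [e1]
      ring
    have hdvd : x1 ∣ (x2 - x1 * c') * (1 - f * β) := ⟨_, key⟩
    rcases hprime.dvd_or_dvd hdvd with h | h
    · apply hx2
      have : x2 = (x2 - x1 * c') + x1 * c' := by ring
      rw [this]
      exact dvd_add h (dvd_mul_right x1 c')
    · exact hprime.not_isUnit (isUnit_of_dvd_unit h hunit)
  exact ⟨hgu.unit, by rw [IsUnit.unit_spec]; exact hg.symm⟩

/-- If `x1 ∣ c`, then `x2 - c` is a prime element. -/
theorem reg2_linear_prime (hmax : maximalIdeal R = Ideal.span {x1, x2})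
    (hprime : Prime x1) (hx2 : ¬ x1 ∣ x2) {c : R} (hc : x1 ∣ c) : Prime (x2 - c) := by
  have h0 : x2 - c ≠ 0 := by
    intro h
    apply hx2
    have : x2 = c := by rwa [sub_eq_zero] at h
    rw [this]
    exact hc
  have hnu : ¬ IsUnit (x2 - c) := by
    refine (IsLocalRing.mem_maximalIdeal _).1 ?_
    refine (maximalIdeal R).sub_mem (reg2_x2_mem hmax) ?_
    obtain ⟨c', rfl⟩ := hc
    exact (maximalIdeal R).mul_mem_right c' (reg2_x1_mem hmax)
  obtain ⟨f, hf, hfd⟩ := reg2_exists_prime_dvd hmax hprime hx2 h0 hnu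
  exact (reg2_assoc_of_dvd_linear hmax hprime hx2 hc hf hfd).prime hf

/-- `x1 ∤ x2 - c` for `x1 ∣ c`. -/
theorem reg2_not_dvd_linear (hx2 : ¬ x1 ∣ x2) {c : R} (hc : x1 ∣ c) : ¬ x1 ∣ x2 - c := by
  intro h
  apply hx2
  have : x2 = (x2 - c) + c := by ring
  rw [this]
  exact dvd_add h hc

/-- An element of `R` not divisible by the prime `f` is a unit of `R_(f)`. -/
theorem primeVal_unit_of_not_dvd {f : R} (hf : Prime f) {r : R} (hr : ¬ f ∣ r) :
    algebraMap R E r ∈ primeVal E f hf ∧ (algebraMap R E r)⁻¹ ∈ primeVal E f hf := by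
  have hr0 : algebraMap R E r ≠ 0 := reg2_algebraMap_ne_zero (primeVal_not_dvd_ne_zero hf hr)
  exact (primeVal_unit_iff hf hr0).2 ⟨r, 1, hr, hf.not_dvd_one, by rw [map_one, mul_one]⟩

/-- Units of `R_(f)` are closed under products. -/
theorem primeVal_unit_mul {f : R} (hf : Prime f) {z w : E}
    (hz : z ∈ primeVal E f hf ∧ z⁻¹ ∈ primeVal E f hf)
    (hw : w ∈ primeVal E f hf ∧ w⁻¹ ∈ primeVal E f hf) :
    z * w ∈ primeVal E f hf ∧ (z * w)⁻¹ ∈ primeVal E f hf := by
  refine ⟨(primeVal E f hf).mul_mem _ _ hz.1 hw.1, ?_⟩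
  rw [mul_inv]
  exact (primeVal E f hf).mul_mem _ _ hz.2 hw.2

/-- Units of `R_(f)` are closed under integer powers. -/
theorem primeVal_unit_zpow {f : R} (hf : Prime f) {z : E}
    (hz : z ∈ primeVal E f hf ∧ z⁻¹ ∈ primeVal E f hf) (k : ℤ) :
    z ^ k ∈ primeVal E f hf ∧ (z ^ k)⁻¹ ∈ primeVal E f hf := by
  have hnat : ∀ n : ℕ, z ^ n ∈ primeVal E f hf ∧ (z ^ n)⁻¹ ∈ primeVal E f hf := by
    intro n
    refine ⟨pow_mem hz.1 n, ?_⟩
    rw [← inv_pow]
    exact pow_mem hz.2 n
  rcases Int.eq_nat_or_neg k with ⟨n, rfl | rfl⟩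
  · rw [zpow_natCast]
    exact hnat n
  · rw [zpow_neg, zpow_natCast, inv_inv]
    exact ⟨(hnat n).2, (hnat n).1⟩

/-- If `u b = f ^ k a` with `f ∤ a`, `f ∤ b` and `u` is a unit of `R_(f)`, then `k = 0`
(reformulation of `primeVal_zpow_unit`). -/
theorem primeVal_not_unit_of_ne {f : R} (hf : Prime f) {k : ℤ} {a b : R} (ha : ¬ f ∣ a)
    (hb : ¬ f ∣ b) {z : E}
    (hz : z * algebraMap R E b = algebraMap R E f ^ k * algebraMap R E a) (hk : k ≠ 0) :
    ¬ (z ∈ primeVal E f hf ∧ z⁻¹ ∈ primeVal E f hf) := fun h =>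
  hk (primeVal_zpow_unit hf ha hb hz h.1 h.2)

/-- Associated primes have the same valuation ring. -/
theorem primeVal_mem_of_associated {f g : R} (hf : Prime f) (hg : Prime g)
    (h : Associated f g) {z : E} (hz : z ∈ primeVal E f hf) : z ∈ primeVal E g hg := by
  obtain ⟨a, b, hb, e⟩ := hz
  exact ⟨a, b, fun hgb => hb (h.dvd_iff_dvd_left.2 hgb), e⟩

/-- The product of the linear factors `x2 - c`, `c ∈ T`. -/
def linProd (x2 : R) (T : Multiset R) : R := (T.map fun c => x2 - c).prod

@[simp] theorem linProd_zero (x2 : R) : linProd x2 (0 : Multiset R) = 1 := by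
  simp [linProd]

theorem linProd_add (x2 : R) (T T' : Multiset R) :
    linProd x2 (T + T') = linProd x2 T * linProd x2 T' := by
  simp [linProd, Multiset.map_add, Multiset.prod_add]

theorem linProd_replicate (x2 c : R) (n : ℕ) :
    linProd x2 (Multiset.replicate n c) = (x2 - c) ^ n := by
  simp [linProd, Multiset.map_replicate, Multiset.prod_replicate]

theorem linProd_ne_zero (hx2 : ¬ x1 ∣ x2) {T : Multiset R} (hT : ∀ c ∈ T, x1 ∣ c) :
    linProd x2 T ≠ 0 := by
  unfold linProd
  rw [Ne, Multiset.prod_eq_zero_iff, Multiset.mem_map]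
  rintro ⟨c, hc, h0⟩
  exact reg2_not_dvd_linear hx2 (hT c hc) (by rw [h0]; exact dvd_zero x1)

/-- **Factorisation at a smooth point** (abstract core of (M2)).  The constants are given by a
family `ι : I → R` of multiples of `x1`. -/
theorem reg2_factor {I : Type*} (hmax : maximalIdeal R = Ideal.span {x1, x2})
    (hprime : Prime x1) (hx2 : ¬ x1 ∣ x2) (ι : I → R) (hι : ∀ i, x1 ∣ ι i) (u : E) (hu : u ≠ 0)
    (h1 : u ∈ primeVal E x1 hprime ∧ u⁻¹ ∈ primeVal E x1 hprime)
    (h2 : ∀ (f : R) (hf : Prime f), ¬ f ∣ x1 →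
      ¬ (u ∈ primeVal E f hf ∧ u⁻¹ ∈ primeVal E f hf) → ∃ i, f ∣ x2 - ι i) :
    ∃ (T T' : Multiset I) (e : R), IsUnit e ∧
      u * algebraMap R E (linProd x2 (T'.map ι)) =
        algebraMap R E e * algebraMap R E (linProd x2 (T.map ι)) := by
  have key : ∀ c : R, c ≠ 0 → ∀ (u : E) (a b : R), a * b = c →
      u * algebraMap R E b = algebraMap R E a →
      (u ∈ primeVal E x1 hprime ∧ u⁻¹ ∈ primeVal E x1 hprime) →
      (∀ (f : R) (hf : Prime f), ¬ f ∣ x1 →
        ¬ (u ∈ primeVal E f hf ∧ u⁻¹ ∈ primeVal E f hf) → ∃ i, f ∣ x2 - ι i) →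
      ∃ (T T' : Multiset I) (e : R), IsUnit e ∧
        u * algebraMap R E (linProd x2 (T'.map ι)) =
          algebraMap R E e * algebraMap R E (linProd x2 (T.map ι)) := by
    intro c
    induction c using (wellFounded_dvdNotUnit (α := R)).induction with
    | _ c ih =>
    intro hc0 u a b hab hu h1 h2
    have ha0 : a ≠ 0 := by rintro rfl; exact hc0 (by rw [← hab, zero_mul])
    have hb0 : b ≠ 0 := by rintro rfl; exact hc0 (by rw [← hab, mul_zero])
    by_cases hcu : IsUnit c
    · rw [← hab] at hcu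
      have hau : IsUnit a := isUnit_of_mul_isUnit_left hcu
      have hbu : IsUnit b := isUnit_of_mul_isUnit_right hcu
      obtain ⟨b', hb'⟩ := hbu.exists_right_inv
      refine ⟨0, 0, a * b',
        hau.mul (IsUnit.of_mul_eq_one b (by rw [mul_comm]; exact hb')), ?_⟩
      rw [Multiset.map_zero, linProd_zero, map_one, mul_one, mul_one, map_mul, ← hu]
      have : algebraMap R E b * algebraMap R E b' = 1 := by rw [← map_mul, hb', map_one]
      rw [mul_assoc, this, mul_one]
    · obtain ⟨f, hf, hfc⟩ := reg2_exists_prime_dvd hmax hprime hx2 hc0 hcu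
      obtain ⟨i, a', ha', rfl⟩ := reg2_max_power hf ha0
      obtain ⟨j, b', hb', rfl⟩ := reg2_max_power hf hb0
      have hf0 : algebraMap R E f ≠ 0 := reg2_algebraMap_ne_zero hf.ne_zero
      have ha'0 : a' ≠ 0 := primeVal_not_dvd_ne_zero hf ha'
      have hb'0 : b' ≠ 0 := primeVal_not_dvd_ne_zero hf hb'
      have hb'E : algebraMap R E b' ≠ 0 := reg2_algebraMap_ne_zero hb'0
      have ha'E : algebraMap R E a' ≠ 0 := reg2_algebraMap_ne_zero ha'0
      have hij : i + j ≠ 0 := by
        intro h0
        have hi : i = 0 := by omega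
        have hj : j = 0 := by omega
        subst hi; subst hj
        rw [pow_zero, one_mul, one_mul] at hab
        rw [← hab] at hfc
        exact (hf.dvd_or_dvd hfc).elim ha' hb'
      -- normal form of `u`
      have hnf : u * algebraMap R E b'
          = algebraMap R E f ^ ((i : ℤ) - j) * algebraMap R E a' := by
        rw [zpow_sub₀ hf0, zpow_natCast, zpow_natCast]
        simp only [map_mul, map_pow] at hu
        field_simp
        rw [← hu]; ring
      by_cases hije : i = j
      · -- common factor: strip it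
        subst hije
        rw [sub_self, zpow_zero, one_mul] at hnf
        have hdnu : DvdNotUnit (a' * b') c := by
          refine ⟨mul_ne_zero ha'0 hb'0, f ^ (i + i), ?_, ?_⟩
          · intro hunit
            exact hf.not_isUnit (isUnit_of_dvd_unit (dvd_pow_self f hij) hunit)
          · rw [← hab, pow_add]; ring
        exact ih (a' * b') hdnu hdnu.1 u a' b' rfl hnf h1 h2
      · -- a zero or a pole along `f`
        have hk : ((i : ℤ) - j) ≠ 0 := by
          intro h
          apply hije
          omega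
        have hnu : ¬ (u ∈ primeVal E f hf ∧ u⁻¹ ∈ primeVal E f hf) :=
          primeVal_not_unit_of_ne hf ha' hb' hnf hk
        have hfx1 : ¬ f ∣ x1 := by
          intro hfx
          have hass : Associated f x1 :=
            hf.associated_of_dvd hprime hfx
          exact hnu ⟨primeVal_mem_of_associated hprime hf hass.symm h1.1,
            primeVal_mem_of_associated hprime hf hass.symm h1.2⟩
        obtain ⟨i₀, hfc₀⟩ := h2 f hf hfx1 hnu
        have hc₀ : x1 ∣ ι i₀ := hι i₀
        obtain ⟨v, hv⟩ := reg2_assoc_of_dvd_linear hmax hprime hx2 hc₀ hf hfc₀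
        have hgp : Prime (x2 - ι i₀) := reg2_linear_prime hmax hprime hx2 hc₀
        have hg0 : algebraMap R E (x2 - ι i₀) ≠ 0 := reg2_algebraMap_ne_zero hgp.ne_zero
        have hvE : algebraMap R E (v : R) ≠ 0 := reg2_algebraMap_ne_zero v.ne_zero
        set G : E := algebraMap R E (x2 - ι i₀) with hG
        -- the new function
        have hGF : G = algebraMap R E f * algebraMap R E (v : R) := by
          rw [hG, ← hv, map_mul]
        have hu' : (u * G ^ ((j : ℤ) - i)) * algebraMap R E ((v : R) ^ i * b') =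
            algebraMap R E ((v : R) ^ j * a') := by
          have hu2 : u * (algebraMap R E f ^ j * algebraMap R E b') =
              algebraMap R E f ^ i * algebraMap R E a' := by
            simpa only [map_mul, map_pow] using hu
          rw [zpow_sub₀ hg0, zpow_natCast, zpow_natCast, map_mul, map_mul, map_pow, map_pow,
            hGF]
          have hFi : algebraMap R E f ^ i ≠ 0 := pow_ne_zero _ hf0
          have hVi : algebraMap R E (v : R) ^ i ≠ 0 := pow_ne_zero _ hvE
          rw [mul_pow, mul_pow]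
          field_simp
          linear_combination hu2
        have hdnu : DvdNotUnit (((v : R) ^ j * a') * ((v : R) ^ i * b')) c := by
          refine ⟨mul_ne_zero (mul_ne_zero (pow_ne_zero _ v.ne_zero) ha'0)
            (mul_ne_zero (pow_ne_zero _ v.ne_zero) hb'0),
            f ^ (i + j) * ((v⁻¹ : Rˣ) : R) ^ (i + j), ?_, ?_⟩
          · intro hunit
            have h3 : IsUnit (f ^ (i + j)) := isUnit_of_mul_isUnit_left hunit
            exact hf.not_isUnit (isUnit_of_dvd_unit (dvd_pow_self f hij) h3)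
          · rw [← hab]
            have hvv : (v : R) * ((v⁻¹ : Rˣ) : R) = 1 := by
              rw [← Units.val_mul, mul_inv_cancel, Units.val_one]
            have e1 : ((v : R) ^ j * a') * ((v : R) ^ i * b') *
                (f ^ (i + j) * ((v⁻¹ : Rˣ) : R) ^ (i + j)) =
                ((v : R) * ((v⁻¹ : Rˣ) : R)) ^ (i + j) * (f ^ i * a' * (f ^ j * b')) := by
              rw [mul_pow, pow_add, pow_add, pow_add]
              ring
            rw [e1, hvv, one_pow, one_mul]
        have hGx1 : G ∈ primeVal E x1 hprime ∧ G⁻¹ ∈ primeVal E x1 hprime :=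
          primeVal_unit_of_not_dvd hprime (reg2_not_dvd_linear hx2 hc₀)
        have h1' : (u * G ^ ((j : ℤ) - i)) ∈ primeVal E x1 hprime ∧
            (u * G ^ ((j : ℤ) - i))⁻¹ ∈ primeVal E x1 hprime :=
          primeVal_unit_mul hprime h1 (primeVal_unit_zpow hprime hGx1 _)
        have h2' : ∀ (f' : R) (hf' : Prime f'), ¬ f' ∣ x1 →
            ¬ ((u * G ^ ((j : ℤ) - i)) ∈ primeVal E f' hf' ∧
              (u * G ^ ((j : ℤ) - i))⁻¹ ∈ primeVal E f' hf') → ∃ i, f' ∣ x2 - ι i := by
          intro f' hf' hf'x1 hnu'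
          by_cases hf'g : f' ∣ x2 - ι i₀
          · exact ⟨i₀, hf'g⟩
          · refine h2 f' hf' hf'x1 fun hunit => hnu' ?_
            exact primeVal_unit_mul hf' hunit
              (primeVal_unit_zpow hf' (primeVal_unit_of_not_dvd hf' hf'g) _)
        obtain ⟨T, T', e, he, hfac⟩ :=
          ih _ hdnu hdnu.1 (u * G ^ ((j : ℤ) - i)) _ _ rfl hu' h1' h2'
        refine ⟨T + Multiset.replicate i i₀, T' + Multiset.replicate j i₀, e, he, ?_⟩
        rw [Multiset.map_add, Multiset.map_add, Multiset.map_replicate, Multiset.map_replicate,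
          linProd_add, linProd_add, linProd_replicate, linProd_replicate, map_mul, map_mul,
          map_pow, map_pow, ← hG]
        rw [zpow_sub₀ hg0, zpow_natCast, zpow_natCast] at hfac
        have hGi : G ^ i ≠ 0 := pow_ne_zero _ hg0
        field_simp at hfac
        linear_combination hfac
  obtain ⟨a, b, hb, rfl⟩ := IsFractionRing.div_surjective R u
  have hb0 : b ≠ 0 := nonZeroDivisors.ne_zero hb
  have ha0 : a ≠ 0 := by rintro rfl; apply hu; simp
  have hb0' : algebraMap R E b ≠ 0 := reg2_algebraMap_ne_zero hb0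
  exact key (a * b) (mul_ne_zero ha0 hb0) _ a b rfl (by field_simp) h1 h2

end Abs

end Fermat.Agent.H41.ORD
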