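import Fermat.Agent.H41.ORD.M2Abs
import Fermat.Agent.H60.SS2.RegFact
import Fermat.Agent.H45.SS.LocalGen

/-!
# P-ORD (S33), block B1-M2 (helper41) : factorisation at a smooth point, chart language

`A` a discrete valuation ring with uniformiser `ϖ` (RAMIFIED bases allowed), `E₀` a field of
characteristic zero, finite over `K₀(y)`, `B = chartClosure A E₀ y`, `𝔪 ∋ ϖ` a maximal ideal of
`B` which is a REGULAR point with parameters `(ϖ, U)` on the branch `V`
(`Fermat.Agent.H11.SS2.IsRegPoint A E₀ ϖ y 𝔪 V ϖ U`: a smooth point of the special fibre; at the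
model: helper7's `RegLAt`, cases (sm10), (sm01)).

* `m2_local` : let `u ≠ 0` be a unit of `V` such that every place centred at `𝔪` at which `u`
  is not a unit is RATIONAL.  Then
  `u * ∏_{t ∈ T'} (U - ϖ t) = ε * ∏_{t ∈ T} (U - ϖ t)`
  with `ε ∈ B_𝔪ˣ` and multisets `T`, `T'` of elements of `A`.
-/

set_option autoImplicit false
set_option linter.unusedSectionVars false
set_option linter.style.haveILetI false
set_option linter.unusedVariables false

noncomputable section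

namespace Fermat.Agent.H41.ORD

open Polynomial IsLocalRing
open Fermat.Agent.H22.KL Fermat.Agent.H45 Fermat.Agent.H60.SS2

/-- **(M2), local form**, from the clauses of a regular point with first parameter `ϖ`. -/
theorem m2_local_aux
    (A : Type) [CommRing A] [IsDomain A] [IsDiscreteValuationRing A]
    (E₀ : Type) [Field E₀] [Algebra A E₀] [CharZero E₀]
    (hinj : Function.Injective (algebraMap A E₀))
    (ϖ : A) (hϖ : Irreducible ϖ) (y : E₀) (hy : Transcendental A y)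
    (hfd : ∃ n : ℕ, Nonempty (Module.Basis (Fin n) (chartField A E₀ y) E₀))
    (𝔪 : Ideal (chartClosure A E₀ y)) (h𝔪 : 𝔪.IsMaximal)
    (V : ValuationSubring E₀) (x2 : E₀)
    (hCV : ∀ z ∈ gaussClosure A E₀ ϖ y, z ∈ V) (hthr : Through A E₀ y 𝔪 V)
    (hx1 : IsUniformiser E₀ V (algebraMap A E₀ ϖ))
    (hx2B : x2 ∈ chartClosure A E₀ y) (hx2m : (⟨x2, hx2B⟩ : chartClosure A E₀ y) ∈ 𝔪)
    (hx2V : x2 ∉ V.nonunits)
    (hp : ∀ s : chartClosure A E₀ y, (s : E₀) ∈ V.nonunits →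
      ∃ b : chartClosure A E₀ y, b ∉ 𝔪 ∧ ∃ c : chartClosure A E₀ y,
        (b : E₀) * s = algebraMap A E₀ ϖ * c)
    (hr : ∀ s : chartClosure A E₀ y, s ∈ 𝔪 →
      ∃ b : chartClosure A E₀ y, b ∉ 𝔪 ∧ ∃ c₁ c₂ : chartClosure A E₀ y,
        (b : E₀) * s = algebraMap A E₀ ϖ * c₁ + x2 * c₂)
    (u : E₀) (hu : u ≠ 0) (huV : u ∈ V) (huV' : u⁻¹ ∈ V)
    (hrat : ∀ V' : ValuationSubring E₀, CentredAt A E₀ y 𝔪 V' → ¬ (u ∈ V' ∧ u⁻¹ ∈ V') →
      IsRationalPlace A E₀ V') :
    ∃ (T T' : Multiset A) (ε : E₀), IsLocUnit A E₀ y 𝔪 ε ∧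
      u * (T'.map fun t => x2 - algebraMap A E₀ (ϖ * t)).prod =
        ε * (T.map fun t => x2 - algebraMap A E₀ (ϖ * t)).prod := by
  classical
  haveI h𝔪p : 𝔪.IsPrime := h𝔪.isPrime
  haveI hFR : IsFractionRing ↥(chartClosure A E₀ y) E₀ :=
    Fermat.Agent.H41.SS.chartClosure_isFractionRing A E₀ y hy hfd
  haveI hNoeth : IsNoetherianRing ↥(chartClosure A E₀ y) :=
    Fermat.Agent.H41.SS.chartClosure_isNoetherianRing A E₀ hinj ϖ hϖ y hy hfd
  haveI hRN : IsNoetherianRing ↥(locAlg 𝔪) := locAlg_isNoetherianRing 𝔪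
  obtain ⟨hBC, -, -⟩ := Fermat.Agent.H89.gaussClosureStatement A E₀ hinj ϖ hϖ y hy
  have hBV : ∀ s : ↥(chartClosure A E₀ y), (s : E₀) ∈ V := fun s => hCV _ (hBC _ s.2)
  obtain ⟨hx10, hx1V, hx1u⟩ := hx1
  have hx1B : algebraMap A E₀ ϖ ∈ chartClosure A E₀ y := Subalgebra.algebraMap_mem _ ϖ
  have hx1in : InLoc A E₀ y 𝔪 (algebraMap A E₀ ϖ) := inLoc_of_mem h𝔪p.ne_top hx1B
  have hx2in : InLoc A E₀ y 𝔪 x2 := inLoc_of_mem h𝔪p.ne_top hx2B
  have hs1m : (⟨algebraMap A E₀ ϖ, hx1B⟩ : ↥(chartClosure A E₀ y)) ∈ 𝔪 :=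
    hthr ⟨_, hx1B⟩ hx1V
  have e1 : locOf 𝔪 (algebraMap A E₀ ϖ) hx1in = toLocAlg 𝔪 ⟨_, hx1B⟩ := Subtype.ext rfl
  have e1' : locOf 𝔪 (algebraMap A E₀ ϖ) hx1in =
      toLocAlg 𝔪 (algebraMap A ↥(chartClosure A E₀ y) ϖ) := Subtype.ext rfl
  have e2 : locOf 𝔪 x2 hx2in = toLocAlg 𝔪 ⟨x2, hx2B⟩ := Subtype.ext rfl
  have hdvd := locAlg_dvd_iff 𝔪 V hBV hthr hx1B hx1V hp
  have hprime : Prime (locOf 𝔪 (algebraMap A E₀ ϖ) hx1in) :=
    locAlg_prime 𝔪 V hBV hthr hx1B hx1V hp hx10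
  have hx1m : locOf 𝔪 (algebraMap A E₀ ϖ) hx1in ∈ maximalIdeal ↥(locAlg 𝔪) := by
    rw [e1]; exact (algebraMap_mem_maximalIdeal_iff 𝔪 _).2 hs1m
  have hx2m' : locOf 𝔪 x2 hx2in ∈ maximalIdeal ↥(locAlg 𝔪) := by
    rw [e2]; exact (algebraMap_mem_maximalIdeal_iff 𝔪 _).2 hx2m
  have hx2nd : ¬ locOf 𝔪 (algebraMap A E₀ ϖ) hx1in ∣ locOf 𝔪 x2 hx2in := by
    rw [hdvd]; exact hx2V
  have hmax := locAlg_hmax_of_reg 𝔪 hx1in hx2in hx1m hx2m' hr
  -- the constants
  set ι : A → ↥(locAlg 𝔪) :=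
    fun t => toLocAlg 𝔪 (algebraMap A ↥(chartClosure A E₀ y) (ϖ * t)) with hιdef
  have hιcoe : ∀ t : A, ((ι t : ↥(locAlg 𝔪)) : E₀) = algebraMap A E₀ (ϖ * t) := fun t => rfl
  have hι : ∀ t, locOf 𝔪 (algebraMap A E₀ ϖ) hx1in ∣ ι t := by
    intro t
    refine ⟨toLocAlg 𝔪 (algebraMap A ↥(chartClosure A E₀ y) t), Subtype.ext ?_⟩
    show algebraMap A E₀ (ϖ * t) = algebraMap A E₀ ϖ * algebraMap A E₀ t
    rw [map_mul]
  have hcoe : ∀ r : ↥(locAlg 𝔪), algebraMap ↥(locAlg 𝔪) E₀ r = (r : E₀) := fun r => rfl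
  -- `u` is a unit along the branch
  have hval1 : ∀ z : E₀, z ∈ V → z ∉ V.nonunits → V.valuation z = 1 := by
    intro z hz hzn
    have h1 : V.valuation z ≤ 1 := (V.valuation_le_one_iff z).2 hz
    rw [ValuationSubring.mem_nonunits_iff, not_lt] at hzn
    exact le_antisymm h1 hzn
  have h1 : u ∈ primeVal E₀ (locOf 𝔪 (algebraMap A E₀ ϖ) hx1in) hprime ∧
      u⁻¹ ∈ primeVal E₀ (locOf 𝔪 (algebraMap A E₀ ϖ) hx1in) hprime := by
    obtain ⟨k, a, b, ha, hb, hab⟩ := primeVal_normal_form (E := E₀) hprime hu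
    have haV : V.valuation (a : E₀) = 1 :=
      hval1 _ (locAlg_le_val 𝔪 V hBV hthr a) fun h => ha ((hdvd a).2 h)
    have hbV : V.valuation (b : E₀) = 1 :=
      hval1 _ (locAlg_le_val 𝔪 V hBV hthr b) fun h => hb ((hdvd b).2 h)
    have huV1 : V.valuation u = 1 := by
      refine hval1 u huV fun h => ?_
      exact vs_not_nonunits_of_inv_mem hu huV' h
    have hk : k = 0 := by
      have h2 := congrArg V.valuation hab
      rw [hcoe, hcoe, hcoe, map_mul, map_mul, map_zpow₀, huV1, hbV, haV, mul_one, mul_one] at h2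
      have h3 : V.valuation (algebraMap A E₀ ϖ) ≠ 1 :=
        ne_of_lt ((ValuationSubring.mem_nonunits_iff V).1 hx1V)
      exact (zpow_eq_one_iff_right₀ zero_le h3).1 h2.symm
    rw [hk, zpow_zero, one_mul] at hab
    exact (primeVal_unit_iff hprime hu).2 ⟨a, b, ha, hb, hab⟩
  -- rational places
  have h2 : ∀ (f : ↥(locAlg 𝔪)) (hf : Prime f),
      ¬ f ∣ locOf 𝔪 (algebraMap A E₀ ϖ) hx1in →
      ¬ (u ∈ primeVal E₀ f hf ∧ u⁻¹ ∈ primeVal E₀ f hf) →
      ∃ t, f ∣ locOf 𝔪 x2 hx2in - ι t := by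
    intro f hf hfx1 hnu
    have hfϖ : ¬ f ∣ toLocAlg 𝔪 (algebraMap A ↥(chartClosure A E₀ y) ϖ) := by
      rwa [← e1']
    have hcen := primeVal_centredAt 𝔪 hinj hϖ hf hfϖ
    have hconst : ∀ a : A, a ≠ 0 →
        ¬ f ∣ toLocAlg 𝔪 (algebraMap A ↥(chartClosure A E₀ y) a) := by
      intro a ha hfa
      have h3 := (primeVal_mem_nonunits_iff (E := E₀) hf _).2 hfa
      have h4 := (hcen.1.1.2.2 a ha).2
      have ha0 : algebraMap A E₀ a ≠ 0 := fun h => ha (hinj (by rw [h, map_zero]))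
      exact vs_not_nonunits_of_inv_mem ha0 h4 h3
    obtain ⟨a, b, hb, hab⟩ := hrat _ hcen hnu x2 (primeVal_coe_mem 𝔪 hf ⟨x2, hx2B⟩)
    have hbE : algebraMap A E₀ b ≠ 0 := fun h => hb (hinj (by rw [h, map_zero]))
    -- `f ∣ b x2 - a`
    have hfba : f ∣ toLocAlg 𝔪 (algebraMap A ↥(chartClosure A E₀ y) b) * locOf 𝔪 x2 hx2in -
        toLocAlg 𝔪 (algebraMap A ↥(chartClosure A E₀ y) a) := by
      rw [← primeVal_mem_nonunits_iff (E := E₀) hf]
      have e : algebraMap ↥(locAlg 𝔪) E₀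
          (toLocAlg 𝔪 (algebraMap A ↥(chartClosure A E₀ y) b) * locOf 𝔪 x2 hx2in -
            toLocAlg 𝔪 (algebraMap A ↥(chartClosure A E₀ y) a)) =
          (x2 - algebraMap A E₀ a / algebraMap A E₀ b) * algebraMap A E₀ b := by
        show algebraMap A E₀ b * x2 - algebraMap A E₀ a = _
        field_simp
      rw [e]
      exact vs_mem_nonunits_of_mul hab
        (primeVal_coe_mem 𝔪 hf (algebraMap A ↥(chartClosure A E₀ y) b))
    rcases ValuationRing.dvd_total a b with hdab | hdba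
    · -- `b = a s`: then `s x2 - 1` would be a non-unit
      obtain ⟨s, rfl⟩ := hdab
      have ha : a ≠ 0 := fun h => hb (by rw [h, zero_mul])
      by_cases hsu : IsUnit s
      · -- then `b ∣ a`, and `a / b` is a unit of `A`: impossible
        exfalso
        have e : toLocAlg 𝔪 (algebraMap A ↥(chartClosure A E₀ y) (a * s)) *
            locOf 𝔪 x2 hx2in - toLocAlg 𝔪 (algebraMap A ↥(chartClosure A E₀ y) a) =
            toLocAlg 𝔪 (algebraMap A ↥(chartClosure A E₀ y) a) *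
              (toLocAlg 𝔪 (algebraMap A ↥(chartClosure A E₀ y) s) * locOf 𝔪 x2 hx2in - 1) := by
          simp only [toLocAlg, map_mul]
          ring
        rw [e] at hfba
        rcases hf.dvd_or_dvd hfba with h | h
        · exact hconst a ha h
        · have hunit : IsUnit
              (toLocAlg 𝔪 (algebraMap A ↥(chartClosure A E₀ y) s) * locOf 𝔪 x2 hx2in - 1) := by
            by_contra hn
            have h5 : toLocAlg 𝔪 (algebraMap A ↥(chartClosure A E₀ y) s) * locOf 𝔪 x2 hx2in - 1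
                ∈ maximalIdeal ↥(locAlg 𝔪) := (IsLocalRing.mem_maximalIdeal _).2 hn
            have h6 : (1 : ↥(locAlg 𝔪)) ∈ maximalIdeal ↥(locAlg 𝔪) := by
              have : (1 : ↥(locAlg 𝔪)) =
                  toLocAlg 𝔪 (algebraMap A ↥(chartClosure A E₀ y) s) * locOf 𝔪 x2 hx2in -
                  (toLocAlg 𝔪 (algebraMap A ↥(chartClosure A E₀ y) s) * locOf 𝔪 x2 hx2in - 1) := by
                ring
              rw [this]
              exact Ideal.sub_mem _ (Ideal.mul_mem_left _ _ hx2m') h5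
            exact (IsLocalRing.mem_maximalIdeal _).1 h6 isUnit_one
          exact hf.not_isUnit (isUnit_of_dvd_unit h hunit)
      · exfalso
        have e : toLocAlg 𝔪 (algebraMap A ↥(chartClosure A E₀ y) (a * s)) *
            locOf 𝔪 x2 hx2in - toLocAlg 𝔪 (algebraMap A ↥(chartClosure A E₀ y) a) =
            toLocAlg 𝔪 (algebraMap A ↥(chartClosure A E₀ y) a) *
              (toLocAlg 𝔪 (algebraMap A ↥(chartClosure A E₀ y) s) * locOf 𝔪 x2 hx2in - 1) := by
          simp only [toLocAlg, map_mul]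
          ring
        rw [e] at hfba
        rcases hf.dvd_or_dvd hfba with h | h
        · exact hconst a ha h
        · have hunit : IsUnit
              (toLocAlg 𝔪 (algebraMap A ↥(chartClosure A E₀ y) s) * locOf 𝔪 x2 hx2in - 1) := by
            by_contra hn
            have h5 : toLocAlg 𝔪 (algebraMap A ↥(chartClosure A E₀ y) s) * locOf 𝔪 x2 hx2in - 1
                ∈ maximalIdeal ↥(locAlg 𝔪) := (IsLocalRing.mem_maximalIdeal _).2 hn
            have h6 : (1 : ↥(locAlg 𝔪)) ∈ maximalIdeal ↥(locAlg 𝔪) := by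
              have : (1 : ↥(locAlg 𝔪)) =
                  toLocAlg 𝔪 (algebraMap A ↥(chartClosure A E₀ y) s) * locOf 𝔪 x2 hx2in -
                  (toLocAlg 𝔪 (algebraMap A ↥(chartClosure A E₀ y) s) * locOf 𝔪 x2 hx2in - 1) := by
                ring
              rw [this]
              exact Ideal.sub_mem _ (Ideal.mul_mem_left _ _ hx2m') h5
            exact (IsLocalRing.mem_maximalIdeal _).1 h6 isUnit_one
          exact hf.not_isUnit (isUnit_of_dvd_unit h hunit)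
    · -- `a = b t`
      obtain ⟨t, rfl⟩ := hdba
      have e : toLocAlg 𝔪 (algebraMap A ↥(chartClosure A E₀ y) b) *
          locOf 𝔪 x2 hx2in - toLocAlg 𝔪 (algebraMap A ↥(chartClosure A E₀ y) (b * t)) =
          toLocAlg 𝔪 (algebraMap A ↥(chartClosure A E₀ y) b) *
            (locOf 𝔪 x2 hx2in - toLocAlg 𝔪 (algebraMap A ↥(chartClosure A E₀ y) t)) := by
        simp only [toLocAlg, map_mul]
        ring
      rw [e] at hfba
      have hft : f ∣ locOf 𝔪 x2 hx2in - toLocAlg 𝔪 (algebraMap A ↥(chartClosure A E₀ y) t) :=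
        (hf.dvd_or_dvd hfba).resolve_left (hconst b hb)
      -- `ϖ ∣ t`
      have hϖt : ϖ ∣ t := by
        by_contra hnd
        have htu : IsUnit t := by
          by_contra hn
          exact hnd ((hϖ.maximalIdeal_eq ▸ (IsLocalRing.mem_maximalIdeal t).2 hn :
            t ∈ Ideal.span {ϖ}) |> Ideal.mem_span_singleton.1)
        have hunit : IsUnit
            (locOf 𝔪 x2 hx2in - toLocAlg 𝔪 (algebraMap A ↥(chartClosure A E₀ y) t)) := by
          by_contra hn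
          have h5 : locOf 𝔪 x2 hx2in - toLocAlg 𝔪 (algebraMap A ↥(chartClosure A E₀ y) t)
              ∈ maximalIdeal ↥(locAlg 𝔪) := (IsLocalRing.mem_maximalIdeal _).2 hn
          have h6 : toLocAlg 𝔪 (algebraMap A ↥(chartClosure A E₀ y) t)
              ∈ maximalIdeal ↥(locAlg 𝔪) := by
            have : toLocAlg 𝔪 (algebraMap A ↥(chartClosure A E₀ y) t) =
                locOf 𝔪 x2 hx2in -
                (locOf 𝔪 x2 hx2in - toLocAlg 𝔪 (algebraMap A ↥(chartClosure A E₀ y) t)) := by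
              ring
            rw [this]
            exact Ideal.sub_mem _ hx2m' h5
          have h7 : IsUnit (toLocAlg 𝔪 (algebraMap A ↥(chartClosure A E₀ y) t)) :=
            (htu.map (algebraMap A ↥(chartClosure A E₀ y))).map _
          exact (IsLocalRing.mem_maximalIdeal _).1 h6 h7
        exact hf.not_isUnit (isUnit_of_dvd_unit hft hunit)
      obtain ⟨t', rfl⟩ := hϖt
      exact ⟨t', hft⟩
  obtain ⟨T, T', e, he, hfac⟩ := reg2_factor (E := E₀) hmax hprime hx2nd ι hι u hu h1 h2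
  have hprod : ∀ S : Multiset A, algebraMap ↥(locAlg 𝔪) E₀
      (linProd (locOf 𝔪 x2 hx2in) (S.map ι)) =
      (S.map fun t => x2 - algebraMap A E₀ (ϖ * t)).prod := by
    intro S
    unfold linProd
    rw [map_multiset_prod, Multiset.map_map, Multiset.map_map]
    rfl
  rw [hprod, hprod] at hfac
  obtain ⟨he1, he2⟩ := (locAlg_isUnit_iff 𝔪 e).1 he
  exact ⟨T, T', (e : E₀), ⟨he1, (mem_locAlg_iff 𝔪).1 e.2, he2⟩, hfac⟩

/-- **(M2), local form**: factorisation of a unit of the branch at a smooth point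
(helper11's `IsRegPoint` with first parameter `ϖ`), under the hypothesis that the zeros and
poles of `u` centred at `𝔪` are rational. -/
theorem m2_local
    (A : Type) [CommRing A] [IsDomain A] [IsDiscreteValuationRing A]
    (E₀ : Type) [Field E₀] [Algebra A E₀] [CharZero E₀]
    (hinj : Function.Injective (algebraMap A E₀))
    (ϖ : A) (hϖ : Irreducible ϖ) (y : E₀) (hy : Transcendental A y)
    (hfd : ∃ n : ℕ, Nonempty (Module.Basis (Fin n) (chartField A E₀ y) E₀))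
    (𝔪 : Ideal (chartClosure A E₀ y)) (h𝔪 : 𝔪.IsMaximal)
    (V : ValuationSubring E₀) (U : E₀)
    (hreg : Fermat.Agent.H11.SS2.IsRegPoint A E₀ ϖ y 𝔪 V (algebraMap A E₀ ϖ) U)
    (u : E₀) (hu : u ≠ 0) (huV : u ∈ V) (huV' : u⁻¹ ∈ V)
    (hrat : ∀ V' : ValuationSubring E₀, CentredAt A E₀ y 𝔪 V' → ¬ (u ∈ V' ∧ u⁻¹ ∈ V') →
      IsRationalPlace A E₀ V') :
    ∃ (T T' : Multiset A) (ε : E₀), Fermat.Agent.H11.SS2.IsLocUnit A E₀ y 𝔪 ε ∧
      u * (T'.map fun t => U - algebraMap A E₀ (ϖ * t)).prod =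
        ε * (T.map fun t => U - algebraMap A E₀ (ϖ * t)).prod := by
  have h60 := isRegPoint60_of_isRegPoint11 A E₀ hinj ϖ hϖ y hy hfd 𝔪 h𝔪 V _ U hreg
  obtain ⟨s, hsm, hsU⟩ := h60.x2_mem
  have hx2B : U ∈ chartClosure A E₀ y := hsU ▸ s.2
  have hx2m : (⟨U, hx2B⟩ : chartClosure A E₀ y) ∈ 𝔪 := by
    have : (⟨U, hx2B⟩ : chartClosure A E₀ y) = s := Subtype.ext hsU.symm
    rw [this]; exact hsm
  obtain ⟨T, T', ε, hε, h⟩ := m2_local_aux A E₀ hinj ϖ hϖ y hy hfd 𝔪 h𝔪 V U h60.vert.2.1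
    h60.vert.2.2 h60.unif hx2B hx2m h60.x2_unit h60.prin h60.reg u hu huV huV' hrat
  exact ⟨T, T', ε, hε, h⟩

end Fermat.Agent.H41.ORD
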